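import Mathlib

/-!
# Row S59, cell NMP, leaf LGC — Boston–Lenstra–Ribet over a commutative ring (helper854)

Integral form of `Lib.Ribet.H223.blr_exists_algHom` (helper223; there `k` is a field with
`2 ≠ 0`): `k` is any commutative ring in which `2` is a unit.  Same proof.

`ρ : G →* E` with `k[G] → E` surjective, `τ : E → k` linear, `d : G →* k`, and `π : G →* B` with
`π g ^ 2 - τ (ρ g) π g + d g = 0` for all `g`; `E` has two elements whose commutator squares to
`1` (`E = End_k V`, `V` free of rank two).  Then there is an algebra homomorphism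
`Ψ : E →ₐ[k] B` with `Ψ (ρ g) = π g`.
-/

set_option autoImplicit false

namespace Fermat.Agent.S59.NMP.H854

section abstract

variable {k : Type*} [CommRing k] {A E B : Type*} [Ring A] [Algebra k A] [Ring E] [Algebra k E]
  [Ring B] [Algebra k B]

/-- **Abstract core** (copy of `Lib.Ribet.H223.ker_le_ker_of_antiInvolution` with `2` a unit). -/
theorem ker_le_ker_of_antiInvolution854 (hk2 : IsUnit (2 : k)) (P : A →ₐ[k] E) (Q : A →ₐ[k] B)
    (T : A → k) (σ : A → A) (hσmul : ∀ u v, σ (u * v) = σ v * σ u)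
    (hσQ : ∀ u, Q (σ u) = algebraMap k B (T u) - Q u)
    (hT : ∀ u, P u = 0 → T u = 0) (hsurj : Function.Surjective P)
    (hcomm : ∃ y z : E, (y * z - z * y) * (y * z - z * y) = 1) :
    ∀ u, P u = 0 → Q u = 0 := by
  -- Step 1
  have step1 : ∀ u, P u = 0 → ∀ v, Q u * Q v = Q (σ v) * Q u := by
    intro u hu v
    have huv : P (u * v) = 0 := by rw [map_mul, hu, zero_mul]
    have h1 : Q (σ (u * v)) = - (Q u * Q v) := by
      rw [hσQ, hT _ huv, map_zero, zero_sub, map_mul]
    have h2 : Q (σ (u * v)) = - (Q (σ v) * Q u) := by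
      rw [hσmul, map_mul, hσQ u, hT u hu, map_zero, zero_sub, mul_neg]
    exact neg_injective (h1.symm.trans h2)
  -- Step 2
  have step2 : ∀ u, P u = 0 → ∀ v w, Q u * Q (v * w - w * v) = 0 := by
    intro u hu v w
    have h1 : Q u * Q (v * w) = Q u * Q w * Q v := by
      rw [step1 u hu (v * w), hσmul, map_mul, mul_assoc, ← step1 u hu v, ← mul_assoc,
        ← step1 u hu w]
    have h2 : Q u * Q (w * v) = Q u * Q w * Q v := by rw [map_mul, mul_assoc]
    rw [map_sub, mul_sub, h1, h2, sub_self]
  obtain ⟨y, z, hyz⟩ := hcomm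
  obtain ⟨v, rfl⟩ := hsurj y
  obtain ⟨w, rfl⟩ := hsurj z
  set c : A := (v * w - w * v) * (v * w - w * v) with hc
  have hPc : P c = 1 := by
    rw [hc, map_mul, map_sub, map_mul, map_mul]
    exact hyz
  have hκ : P (c - 1) = 0 := by rw [map_sub, hPc, map_one, sub_self]
  have huc : ∀ u, P u = 0 → Q u * Q c = 0 := by
    intro u hu
    rw [hc, map_mul, ← mul_assoc, step2 u hu v w, zero_mul]
  -- `Q κ = 0`
  have h3 : Q (c - 1) * Q (c - 1) = - (Q (c - 1) * Q (c - 1)) := by
    have := step1 (c - 1) hκ (c - 1)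
    rw [hσQ, hT _ hκ, map_zero, zero_sub, neg_mul] at this
    exact this
  have h4 : Q (c - 1) * Q (c - 1) = 0 := by
    have h5 : (2 : k) • (Q (c - 1) * Q (c - 1)) = 0 := by
      rw [two_smul]
      nth_rewrite 1 [h3]
      exact neg_add_cancel _
    obtain ⟨u2, hu2⟩ := hk2
    have h6 : ((u2⁻¹ : kˣ) : k) • ((2 : k) • (Q (c - 1) * Q (c - 1))) = 0 := by
      rw [h5, smul_zero]
    rwa [smul_smul, ← hu2, Units.inv_mul, one_smul] at h6
  have h6 : Q (c - 1) = 0 := by
    have h7 := huc (c - 1) hκ
    have h8 : Q c = Q (c - 1) + 1 := by rw [map_sub, map_one, sub_add_cancel]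
    rw [h8, mul_add, h4, zero_add, mul_one] at h7
    exact h7
  have hQc : Q c = 1 := by
    have h8 : Q c = Q (c - 1) + 1 := by rw [map_sub, map_one, sub_add_cancel]
    rw [h8, h6, zero_add]
  intro u hu
  have := huc u hu
  rwa [hQc, mul_one] at this

/-- A surjective algebra homomorphism `P` and an algebra homomorphism `Q` with
`ker P ⊆ ker Q` give an algebra homomorphism `E →ₐ[k] B`. -/
noncomputable def liftOfKerLe854 (P : A →ₐ[k] E) (Q : A →ₐ[k] B)
    (hsurj : Function.Surjective P) (hker : ∀ u, P u = 0 → Q u = 0) : E →ₐ[k] B :=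
  have key : ∀ u v, P u = P v → Q u = Q v := fun u v h => by
    have := hker (u - v) (by rw [map_sub, h, sub_self])
    rwa [map_sub, sub_eq_zero] at this
  { toFun := fun e => Q (Function.surjInv hsurj e)
    map_one' := by
      rw [← map_one Q]
      exact key _ _ (by rw [Function.surjInv_eq hsurj, map_one])
    map_mul' := fun x y => by
      rw [← map_mul Q]
      exact key _ _ (by rw [map_mul, Function.surjInv_eq hsurj, Function.surjInv_eq hsurj,
        Function.surjInv_eq hsurj])
    map_zero' := by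
      rw [← map_zero Q]
      exact key _ _ (by rw [Function.surjInv_eq hsurj, map_zero])
    map_add' := fun x y => by
      rw [← map_add Q]
      exact key _ _ (by rw [map_add, Function.surjInv_eq hsurj, Function.surjInv_eq hsurj,
        Function.surjInv_eq hsurj])
    commutes' := fun r => by
      rw [← AlgHom.commutes Q r]
      exact key _ _ (by rw [Function.surjInv_eq hsurj, AlgHom.commutes]) }

theorem liftOfKerLe854_apply (P : A →ₐ[k] E) (Q : A →ₐ[k] B) (hsurj : Function.Surjective P)
    (hker : ∀ u, P u = 0 → Q u = 0) (u : A) : liftOfKerLe854 P Q hsurj hker (P u) = Q u := by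
  have := hker (Function.surjInv hsurj (P u) - u)
    (by rw [map_sub, Function.surjInv_eq hsurj, sub_self])
  rw [map_sub, sub_eq_zero] at this
  exact this

end abstract

section groupRing

variable {k : Type*} [CommRing k] {G : Type*} [Group G] {E B : Type*} [Ring E] [Algebra k E]
  [Ring B] [Algebra k B]

/-- `g ↦ d(g) g⁻¹`, as a monoid homomorphism into the opposite of the group algebra. -/
noncomputable def conjHom854 (d : G →* k) : G →* (MonoidAlgebra k G)ᵐᵒᵖ where
  toFun g := MulOpposite.op (MonoidAlgebra.single g⁻¹ (d g))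
  map_one' := by
    rw [inv_one, map_one]
    rfl
  map_mul' g h := by
    rw [← MulOpposite.op_mul, MonoidAlgebra.single_mul_single, mul_inv_rev, map_mul, mul_comm]

/-- The anti-involution `∑ a_g g ↦ ∑ a_g d(g) g⁻¹` of `k[G]`. -/
noncomputable def conj854 (d : G →* k) (u : MonoidAlgebra k G) : MonoidAlgebra k G :=
  MulOpposite.unop (MonoidAlgebra.lift k (MonoidAlgebra k G)ᵐᵒᵖ G (conjHom854 d) u)

theorem conj854_mul (d : G →* k) (u v : MonoidAlgebra k G) :
    conj854 d (u * v) = conj854 d v * conj854 d u := by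
  unfold conj854
  rw [map_mul, MulOpposite.unop_mul]

theorem conj854_add (d : G →* k) (u v : MonoidAlgebra k G) :
    conj854 d (u + v) = conj854 d u + conj854 d v := by
  unfold conj854
  rw [map_add, MulOpposite.unop_add]

theorem conj854_smul (d : G →* k) (r : k) (u : MonoidAlgebra k G) :
    conj854 d (r • u) = r • conj854 d u := by
  unfold conj854
  rw [map_smul, MulOpposite.unop_smul]

theorem conj854_of (d : G →* k) (g : G) :
    conj854 d (MonoidAlgebra.of k G g) = MonoidAlgebra.single g⁻¹ (d g) := by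
  unfold conj854
  rw [MonoidAlgebra.lift_of]
  rfl

/-- `Q ∘ conj = T - Q` when the quadratic relations hold. -/
theorem lift_conj854 (π : G →* B) (d : G →* k) (t : G → k)
    (hπ : ∀ g, π g * π g - t g • π g + d g • 1 = 0)
    (T : MonoidAlgebra k G →ₗ[k] k) (hT : ∀ g, T (MonoidAlgebra.of k G g) = t g)
    (u : MonoidAlgebra k G) :
    MonoidAlgebra.lift k B G π (conj854 d u) =
      algebraMap k B (T u) - MonoidAlgebra.lift k B G π u := by
  induction u using MonoidAlgebra.induction_on with
  | of g =>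
    rw [conj854_of, MonoidAlgebra.lift_single, MonoidAlgebra.lift_of, hT,
      Algebra.algebraMap_eq_smul_one]
    have h1 := hπ g
    have h2 : (π g * π g - t g • π g + d g • 1) * π g⁻¹ = 0 := by rw [h1, zero_mul]
    have h3 : π g * π g⁻¹ = 1 := by rw [← map_mul, mul_inv_cancel, map_one]
    rw [add_mul, sub_mul, mul_assoc, h3, mul_one, smul_mul_assoc, h3, smul_mul_assoc,
      one_mul] at h2
    rw [← sub_eq_zero, ← h2]
    abel
  | add x y hx hy =>
    simp only [conj854_add, map_add, hx, hy]
    abel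
  | smul r x hx =>
    simp only [conj854_smul, map_smul, hx, smul_sub, smul_eq_mul, map_mul]
    rw [Algebra.smul_def]

/-- **Boston–Lenstra–Ribet**, kernel form, over a commutative ring with `2` a unit. -/
theorem blr_ker854 (hk2 : IsUnit (2 : k)) (ρ : G →* E) (π : G →* B) (d : G →* k)
    (τ : E →ₗ[k] k)
    (hπ : ∀ g, π g * π g - τ (ρ g) • π g + d g • 1 = 0)
    (hsurj : Function.Surjective (MonoidAlgebra.lift k E G ρ))
    (hcomm : ∃ y z : E, (y * z - z * y) * (y * z - z * y) = 1) :
    ∀ u, MonoidAlgebra.lift k E G ρ u = 0 → MonoidAlgebra.lift k B G π u = 0 := by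
  have hT : ∀ g, (τ ∘ₗ (MonoidAlgebra.lift k E G ρ).toLinearMap) (MonoidAlgebra.of k G g) =
      τ (ρ g) := by
    intro g
    rw [LinearMap.comp_apply, AlgHom.toLinearMap_apply, MonoidAlgebra.lift_of]
  refine ker_le_ker_of_antiInvolution854 hk2 (MonoidAlgebra.lift k E G ρ)
    (MonoidAlgebra.lift k B G π)
    (fun u => (τ ∘ₗ (MonoidAlgebra.lift k E G ρ).toLinearMap) u) (conj854 d) (conj854_mul d)
    ?_ ?_ hsurj hcomm
  · intro u
    exact lift_conj854 π d (fun g => τ (ρ g)) hπ _ hT u
  · intro u hu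
    rw [LinearMap.comp_apply, AlgHom.toLinearMap_apply, hu, map_zero]

/-- **Boston–Lenstra–Ribet** over a commutative ring with `2` a unit: `π` factors through
`ρ`. -/
theorem blr_exists_algHom854 (hk2 : IsUnit (2 : k)) (ρ : G →* E) (π : G →* B) (d : G →* k)
    (τ : E →ₗ[k] k) (hπ : ∀ g, π g * π g - τ (ρ g) • π g + d g • 1 = 0)
    (hsurj : Function.Surjective (MonoidAlgebra.lift k E G ρ))
    (hcomm : ∃ y z : E, (y * z - z * y) * (y * z - z * y) = 1) :
    ∃ Ψ : E →ₐ[k] B, (∀ u, Ψ (MonoidAlgebra.lift k E G ρ u) = MonoidAlgebra.lift k B G π u) ∧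
      ∀ g, Ψ (ρ g) = π g := by
  have hker := blr_ker854 hk2 ρ π d τ hπ hsurj hcomm
  refine ⟨liftOfKerLe854 _ _ hsurj hker, fun u => liftOfKerLe854_apply _ _ hsurj hker u,
    fun g => ?_⟩
  have := liftOfKerLe854_apply _ _ hsurj hker (MonoidAlgebra.of k G g)
  rwa [MonoidAlgebra.lift_of, MonoidAlgebra.lift_of] at this

/-- The group algebra surjects onto `E` as soon as the image of `ρ` spans `E`. -/
theorem lift_surjective_of_span854 (ρ : G →* E)
    (hspan : Submodule.span k (Set.range ρ) = ⊤) :
    Function.Surjective (MonoidAlgebra.lift k E G ρ) := by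
  intro x
  have hx : x ∈ Submodule.span k (Set.range ρ) := by rw [hspan]; exact Submodule.mem_top
  induction hx using Submodule.span_induction with
  | mem y hy =>
    obtain ⟨g, rfl⟩ := hy
    exact ⟨MonoidAlgebra.of k G g, MonoidAlgebra.lift_of _ _⟩
  | zero => exact ⟨0, map_zero _⟩
  | add y z _ _ hy hz =>
    obtain ⟨u, rfl⟩ := hy
    obtain ⟨v, rfl⟩ := hz
    exact ⟨u + v, map_add _ _ _⟩
  | smul a y _ hy =>
    obtain ⟨u, rfl⟩ := hy
    exact ⟨a • u, map_smul _ _ _⟩

end groupRing

section endo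

variable {k : Type*} [CommRing k] {V : Type*} [AddCommGroup V] [Module k V]

/-- In `M₂(k)` there are two elements whose commutator squares to `1`. -/
theorem exists_commutator_sq_eq_one_matrix854 :
    ∃ y z : Matrix (Fin 2) (Fin 2) k, (y * z - z * y) * (y * z - z * y) = 1 := by
  refine ⟨!![0, 1; 0, 0], !![0, 0; 1, 0], ?_⟩
  ext i j
  fin_cases i <;> fin_cases j <;> simp [Matrix.mul_apply, Fin.sum_univ_two]

/-- In `End(V)`, `V` free of rank two, there are two elements whose commutator squares to
`1`. -/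
theorem exists_commutator_sq_eq_one854 (b : Module.Basis (Fin 2) k V) :
    ∃ y z : Module.End k V, (y * z - z * y) * (y * z - z * y) = 1 := by
  let e := LinearMap.toMatrixAlgEquiv b
  obtain ⟨y, z, hyz⟩ := exists_commutator_sq_eq_one_matrix854 (k := k)
  refine ⟨e.symm y, e.symm z, ?_⟩
  rw [← map_mul, ← map_mul, ← map_sub, ← map_mul, hyz, map_one]

/-- **Boston–Lenstra–Ribet for endomorphism rings**: `V` free of rank two, the image of `ρ`
spans `End V`, every `g` satisfies on `M` the characteristic polynomial of `ρ g`. -/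
theorem blr_end854 (hk2 : IsUnit (2 : k)) {M : Type*} [AddCommGroup M] [Module k M]
    (b : Module.Basis (Fin 2) k V) {G : Type*} [Group G]
    (ρ : G →* Module.End k V) (π : G →* Module.End k M)
    (hspan : Submodule.span k (Set.range ρ) = ⊤)
    (hquad : ∀ g : G, π g * π g - LinearMap.trace k V (ρ g) • π g
      + LinearMap.det (ρ g) • (1 : Module.End k M) = 0) :
    ∃ Ψ : Module.End k V →ₐ[k] Module.End k M, ∀ g, Ψ (ρ g) = π g := by
  obtain ⟨Ψ, -, hΨ⟩ := blr_exists_algHom854 hk2 ρ π (LinearMap.det.comp ρ)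
    (LinearMap.trace k V) (fun g => hquad g) (lift_surjective_of_span854 ρ hspan)
    (exists_commutator_sq_eq_one854 b)
  exact ⟨Ψ, hΨ⟩

end endo

end Fermat.Agent.S59.NMP.H854
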