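import Mathlib

/-!
# Row S59, cell NMP, leaf LGC — the `p ^ n`-dévissage (helper854), Mathlib only

`G` a group acting on an abelian group `J`, `I ≤ G`, `r : J →+ P` an `I`-invariant additive map
("specialisation"), `J` `p`-divisible.  If the kernel of `r` on `J[p]` is contained in the
inertia augmentation of `J[p]` (MAXUNR at level `p`), then the kernel of `r` on `J[p ^ n]` is
contained in the inertia augmentation of `J[p ^ n]`, for every `n`.

* `augTors854 I m`        : the subgroup generated by the `σ • y - y`, `σ ∈ I`, `m • y = 0`;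
* `map_eq_zero_of_mem_augTors854` : an `I`-invariant additive map kills `augTors854 I m`;
* `exists_smul_eq_of_mem_augTors854` : `augTors854 I (p ^ n) ⊆ p • augTors854 I (p ^ (n + 1))`
  for `p`-divisible `J`;
* `dev_core854` : the dévissage.
-/

set_option autoImplicit false

namespace Fermat.Agent.S59.NMP.H854

variable {G J P : Type*} [Group G] [AddCommGroup J] [DistribMulAction G J] [AddCommGroup P]

/-- The inertia augmentation of the `m`-torsion: the subgroup of `J` generated by the
`σ • y - y` with `σ ∈ I` and `m • y = 0`. -/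
def augTors854 (I : Subgroup G) (m : ℕ) : AddSubgroup J :=
  AddSubgroup.closure {z : J | ∃ σ ∈ I, ∃ y : J, m • y = 0 ∧ z = σ • y - y}

theorem augTors854_mono (I : Subgroup G) {m m' : ℕ} (h : m ∣ m') :
    (augTors854 I m : AddSubgroup J) ≤ augTors854 I m' := by
  unfold augTors854
  refine AddSubgroup.closure_mono ?_
  rintro z ⟨σ, hσ, y, hy, rfl⟩
  obtain ⟨c, rfl⟩ := h
  refine ⟨σ, hσ, y, ?_, rfl⟩
  rw [mul_comm, mul_smul, hy, smul_zero]

/-- Elements of the augmentation of the `m`-torsion are killed by `m`. -/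
theorem smul_eq_zero_of_mem_augTors854 (I : Subgroup G) (m : ℕ) {x : J}
    (hx : x ∈ augTors854 I m) : m • x = 0 := by
  unfold augTors854 at hx
  induction hx using AddSubgroup.closure_induction with
  | mem z hz =>
    obtain ⟨σ, -, y, hy, rfl⟩ := hz
    rw [smul_sub, smul_comm, hy, smul_zero, sub_zero]
  | zero => exact smul_zero _
  | add a b _ _ ha hb => rw [smul_add, ha, hb, add_zero]
  | neg a _ ha => rw [smul_neg, ha, neg_zero]

/-- An `I`-invariant additive map kills the inertia augmentation. -/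
theorem map_eq_zero_of_mem_augTors854 (I : Subgroup G) (r : J →+ P)
    (hr : ∀ σ ∈ I, ∀ x : J, r (σ • x) = r x) (m : ℕ) {x : J}
    (hx : x ∈ augTors854 I m) : r x = 0 := by
  unfold augTors854 at hx
  induction hx using AddSubgroup.closure_induction with
  | mem z hz =>
    obtain ⟨σ, hσ, y, -, rfl⟩ := hz
    rw [map_sub, hr σ hσ, sub_self]
  | zero => exact map_zero _
  | add a b _ _ ha hb => rw [map_add, ha, hb, add_zero]
  | neg a _ ha => rw [map_neg, ha, neg_zero]

/-- For `p`-divisible `J`: every element of the augmentation of `J[p ^ n]` is `p` times an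
element of the augmentation of `J[p ^ (n + 1)]`. -/
theorem exists_smul_eq_of_mem_augTors854 (I : Subgroup G) (p : ℕ)
    (hdiv : ∀ y : J, ∃ z : J, p • z = y) (n : ℕ) {y : J}
    (hy : y ∈ augTors854 I (p ^ n)) :
    ∃ w : J, w ∈ augTors854 I (p ^ (n + 1)) ∧ p • w = y := by
  unfold augTors854 at hy
  induction hy using AddSubgroup.closure_induction with
  | mem z hz =>
    obtain ⟨σ, hσ, u, hu, rfl⟩ := hz
    obtain ⟨v, rfl⟩ := hdiv u
    refine ⟨σ • v - v, AddSubgroup.subset_closure ⟨σ, hσ, v, ?_, rfl⟩, ?_⟩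
    · rw [pow_succ, mul_smul]
      exact hu
    · rw [smul_sub, smul_comm]
  | zero => exact ⟨0, AddSubgroup.zero_mem _, smul_zero _⟩
  | add a b _ _ ha hb =>
    obtain ⟨wa, hwa, rfl⟩ := ha
    obtain ⟨wb, hwb, rfl⟩ := hb
    exact ⟨wa + wb, AddSubgroup.add_mem _ hwa hwb, smul_add _ _ _⟩
  | neg a _ ha =>
    obtain ⟨wa, hwa, rfl⟩ := ha
    exact ⟨-wa, AddSubgroup.neg_mem _ hwa, smul_neg _ _⟩

/-- **DEV** (the `p ^ n`-dévissage).  `J` a `p`-divisible abelian group with an action of `G`,
`I ≤ G`, `r : J →+ P` an `I`-invariant additive map.  If every `x ∈ J[p]` with `r x = 0` lies in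
the inertia augmentation of `J[p]`, then every `x ∈ J[p ^ n]` with `r x = 0` lies in the inertia
augmentation of `J[p ^ n]`. -/
theorem dev_core854 (I : Subgroup G) (p : ℕ) (r : J →+ P)
    (hr : ∀ σ ∈ I, ∀ x : J, r (σ • x) = r x)
    (hdiv : ∀ y : J, ∃ z : J, p • z = y)
    (hbase : ∀ x : J, p • x = 0 → r x = 0 → x ∈ augTors854 I p)
    (n : ℕ) (x : J) (hx : p ^ n • x = 0) (hrx : r x = 0) :
    x ∈ augTors854 I (p ^ n) := by
  induction n generalizing x with
  | zero =>
    rw [pow_zero, one_smul] at hx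
    rw [hx]
    exact AddSubgroup.zero_mem _
  | succ n ih =>
    have hy : p ^ n • (p • x) = 0 := by
      rw [← mul_smul, ← pow_succ]
      exact hx
    have hry : r (p • x) = 0 := by rw [map_nsmul, hrx, smul_zero]
    obtain ⟨w, hw, hpw⟩ := exists_smul_eq_of_mem_augTors854 I p hdiv n (ih (p • x) hy hry)
    have h1 : p • (x - w) = 0 := by rw [smul_sub, hpw, sub_self]
    have h2 : r (x - w) = 0 := by
      rw [map_sub, hrx, map_eq_zero_of_mem_augTors854 I r hr _ hw, sub_zero]
    have h3 : x - w ∈ augTors854 I (p ^ (n + 1)) :=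
      augTors854_mono I (dvd_pow_self p (Nat.succ_ne_zero n)) (hbase _ h1 h2)
    have h4 : x = (x - w) + w := by abel
    rw [h4]
    exact AddSubgroup.add_mem _ h3 hw

/-- **DEV, equality form.**  Under the hypotheses of `dev_core854`: on `J[p ^ n]` the kernel of
`r` IS the inertia augmentation. -/
theorem dev_iff854 (I : Subgroup G) (p : ℕ) (r : J →+ P)
    (hr : ∀ σ ∈ I, ∀ x : J, r (σ • x) = r x)
    (hdiv : ∀ y : J, ∃ z : J, p • z = y)
    (hbase : ∀ x : J, p • x = 0 → r x = 0 → x ∈ augTors854 I p)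
    (n : ℕ) (x : J) :
    x ∈ augTors854 I (p ^ n) ↔ p ^ n • x = 0 ∧ r x = 0 :=
  ⟨fun h => ⟨smul_eq_zero_of_mem_augTors854 I _ h, map_eq_zero_of_mem_augTors854 I r hr _ h⟩,
    fun h => dev_core854 I p r hr hdiv hbase n x h.1 h.2⟩

end Fermat.Agent.S59.NMP.H854
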