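import Fermat.Agent.S59.NMP.H854.EigCore

/-!
# Row S59, cell NMP, leaf LGC — EIG, the algebra in OPERATOR form (helper854), Mathlib only

`eig_alg854`: the abstract form of "`T_p = α + p/α` on the whole Tate eigenmodule", with NO
semisimplicity of `T_p`, NO extension of the coefficient ring and NO multiplicity one.

* `V` free of rank `2` with basis `b`, `L = A ∙ b 0`; `E` a Noetherian module over the domain `A`;
* `Ψ : End_A V →ₐ End_A E` (Boston–Lenstra–Ribet), `t` (`T_p`) commuting with the image of `Ψ`;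
* `r : G → End_A V` (the representation), `I ⊆ G` (inertia) with `(r σ - 1) V ⊆ L`, one
  `σ₀ ∈ I` with `r σ₀ ≠ 1` (the determinant is ramified);
* `φ` (Frobenius) with `(φ - α) V ⊆ L`;
* the *hereditary geometric input* `hgeo` (KeyAt + CORE, pattern of `S33.homEigen_geoAt`): a
  `Ψ`-stable saturated submodule `M'` of `E` with
  `a M' ⊆ I_aug E + range ((Ψ φ)² - t (Ψ φ) + p)` for some `a ≠ 0` is its own augmentation.

Conclusion: `α • t e = (α² + p) • e` for every `e : E`.

Proof.  `c := (α² + p) - α t` commutes with `Ψ`.  `c = Rel - Ψ(φ - α)(Ψ φ + α - t)` and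
`b' Ψ(n) E ⊆ I_aug E` for every `n` with image in `L` (`frob_mem_aug854`, uses `σ₀`), so
`b' c E ⊆ I_aug E + range Rel`.  Hence `M' := sat (c E)` satisfies the hypothesis of `hgeo`,
`M' = I_aug M'` is killed by `Ψ P` (`P` the projection along `L`), i.e. `c Ψ(P) = 0`, and
`1 = e₁₂ P e₂₁ + P` gives `c = 0`.
-/

set_option autoImplicit false

namespace Fermat.Agent.S59.NMP.H854

open Module

variable {A : Type*} [CommRing A] {V : Type*} [AddCommGroup V] [Module A V]
  {E : Type*} [AddCommGroup E] [Module A E]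

/-- The augmentation of a submodule `M'` of `E` for the operators `Ψ (r σ)`, `σ ∈ I`. -/
def augRel854 {G : Type*} (Ψ : Module.End A V →ₐ[A] Module.End A E) (r : G → Module.End A V)
    (I : Set G) (M' : Submodule A E) : Submodule A E :=
  Submodule.span A {z : E | ∃ σ ∈ I, ∃ e' ∈ M', z = Ψ (r σ) e' - e'}

theorem augRel854_mono {G : Type*} (Ψ : Module.End A V →ₐ[A] Module.End A E)
    (r : G → Module.End A V) (I : Set G) {M' M'' : Submodule A E} (h : M' ≤ M'') :
    augRel854 Ψ r I M' ≤ augRel854 Ψ r I M'' := by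
  apply Submodule.span_mono
  rintro z ⟨σ, hσ, e', he', rfl⟩
  exact ⟨σ, hσ, e', h he', rfl⟩

/-- `Ψ P` kills the augmentation. -/
theorem projOne854_kills_aug {G : Type*} (b : Basis (Fin 2) A V)
    (Ψ : Module.End A V →ₐ[A] Module.End A E) (r : G → Module.End A V) (I : Set G)
    (hI : ∀ σ ∈ I, ∀ v : V, r σ v - v ∈ Submodule.span A ({b 0} : Set V))
    {z : E} (hz : z ∈ augRel854 Ψ r I ⊤) : Ψ (projOne854 b) z = 0 := by
  have hPs : ∀ σ ∈ I, projOne854 b * r σ = projOne854 b := by
    intro σ hσ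
    refine LinearMap.ext fun v => ?_
    have h := projOne854_eq_zero_of_mem b (hI σ hσ v)
    rw [map_sub, sub_eq_zero] at h
    exact h
  unfold augRel854 at hz
  induction hz using Submodule.span_induction with
  | mem z hz =>
    obtain ⟨σ, hσ, e', -, rfl⟩ := hz
    rw [map_sub, ← Module.End.mul_apply, ← map_mul, hPs σ hσ, sub_self]
  | zero => exact map_zero _
  | add x y _ _ hx hy => rw [map_add, hx, hy, add_zero]
  | smul a x _ hx => rw [map_smul, hx, smul_zero]

/-- **FROB.**  If some `σ₀ ∈ I` acts nontrivially on `V`, there is `b' ≠ 0` with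
`b' Ψ(n) E ⊆ I_aug E` for every endomorphism `n` of `V` with image in the line `L`. -/
theorem frob_mem_aug854 {G : Type*} (b : Basis (Fin 2) A V)
    (Ψ : Module.End A V →ₐ[A] Module.End A E) (r : G → Module.End A V) (I : Set G)
    (hI : ∀ σ ∈ I, ∀ v : V, r σ v - v ∈ Submodule.span A ({b 0} : Set V))
    (σ₀ : G) (hσ₀ : σ₀ ∈ I) (hσ₀1 : r σ₀ ≠ 1) :
    ∃ b' : A, b' ≠ 0 ∧ ∀ n : Module.End A V,
      (∀ v : V, n v ∈ Submodule.span A ({b 0} : Set V)) →
        ∀ e : E, b' • Ψ n e ∈ augRel854 Ψ r I ⊤ := by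
  have hv₀ : ∃ v₀ : V, r σ₀ v₀ - v₀ ≠ 0 := by
    by_contra hcon
    apply hσ₀1
    refine LinearMap.ext fun v => ?_
    by_contra hne
    exact hcon ⟨v, fun h => hne (by rw [Module.End.one_apply]; exact sub_eq_zero.mp h)⟩
  obtain ⟨v₀, hv₀⟩ := hv₀
  obtain ⟨b', hb'⟩ := Submodule.mem_span_singleton.mp (hI σ₀ hσ₀ v₀)
  refine ⟨b', ?_, ?_⟩
  · intro h0
    apply hv₀
    rw [← hb', h0, zero_smul]
  · intro n hn e
    set x : Module.End A V := (LinearMap.toSpanSingleton A V v₀).comp ((b.coord 0).comp n)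
      with hx
    have hnv : ∀ v : V, n v = b.coord 0 (n v) • b 0 := by
      intro v
      obtain ⟨c, hc⟩ := Submodule.mem_span_singleton.mp (hn v)
      rw [← hc, map_smul, Basis.coord_apply, Basis.repr_self, Finsupp.single_eq_same,
        smul_eq_mul, mul_one]
    have hmul : (r σ₀ - 1) * x = b' • n := by
      refine LinearMap.ext fun v => ?_
      have h1 : x v = b.coord 0 (n v) • v₀ := rfl
      rw [Module.End.mul_apply, h1, map_smul, LinearMap.sub_apply, Module.End.one_apply, ← hb',
        LinearMap.smul_apply, smul_comm]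
      conv_rhs => rw [hnv v]
    have h2 : b' • Ψ n e = Ψ (r σ₀) (Ψ x e) - Ψ x e := by
      rw [← LinearMap.smul_apply, ← map_smul, ← hmul, map_mul, map_sub, map_one,
        Module.End.mul_apply, LinearMap.sub_apply, Module.End.one_apply]
    rw [h2]
    exact Submodule.subset_span ⟨σ₀, hσ₀, Ψ x e, Submodule.mem_top, rfl⟩

/-- The saturation of the range of an endomorphism (over a domain). -/
def satRange854 [IsDomain A] (c : Module.End A E) : Submodule A E where
  carrier := {w | ∃ d : A, d ≠ 0 ∧ d • w ∈ LinearMap.range c}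
  zero_mem' := ⟨1, one_ne_zero, by rw [smul_zero]; exact Submodule.zero_mem _⟩
  add_mem' := by
    rintro v w ⟨d, hd, hv⟩ ⟨d', hd', hw⟩
    refine ⟨d * d', mul_ne_zero hd hd', ?_⟩
    rw [smul_add]
    refine Submodule.add_mem _ ?_ ?_
    · rw [mul_comm, mul_smul]
      exact Submodule.smul_mem _ _ hv
    · rw [mul_smul]
      exact Submodule.smul_mem _ _ hw
  smul_mem' := by
    rintro a w ⟨d, hd, hw⟩
    refine ⟨d, hd, ?_⟩
    rw [smul_comm]
    exact Submodule.smul_mem _ _ hw

theorem mem_satRange854 [IsDomain A] (c : Module.End A E) (w : E) :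
    w ∈ satRange854 c ↔ ∃ d : A, d ≠ 0 ∧ d • w ∈ LinearMap.range c := Iff.rfl

theorem range_le_satRange854 [IsDomain A] (c : Module.End A E) :
    LinearMap.range c ≤ satRange854 c := fun w hw =>
  ⟨1, one_ne_zero, by rw [one_smul]; exact hw⟩

theorem satRange854_saturated [IsDomain A] (c : Module.End A E) (d : A) (hd : d ≠ 0) (w : E)
    (hw : d • w ∈ satRange854 c) : w ∈ satRange854 c := by
  obtain ⟨d', hd', h⟩ := hw
  exact ⟨d' * d, mul_ne_zero hd' hd, by rw [mul_smul]; exact h⟩

/-- A uniform denominator on the saturation (Noetherian module). -/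
theorem exists_smul_satRange854_le [IsDomain A] [IsNoetherian A E] (c : Module.End A E) :
    ∃ a : A, a ≠ 0 ∧ ∀ w ∈ satRange854 c, a • w ∈ LinearMap.range c := by
  classical
  obtain ⟨S, hS⟩ := (IsNoetherian.noetherian (satRange854 c) : (satRange854 c).FG)
  have hgen : ∀ T : Finset E, (∀ g ∈ T, g ∈ satRange854 c) →
      ∃ a : A, a ≠ 0 ∧ ∀ g ∈ T, a • g ∈ LinearMap.range c := by
    intro T
    induction T using Finset.induction_on with
    | empty => exact fun _ => ⟨1, one_ne_zero, fun g hg => absurd hg (Finset.notMem_empty g)⟩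
    | insert g T _ ih =>
      intro hT
      obtain ⟨a, ha, haT⟩ := ih fun g' hg' => hT g' (Finset.mem_insert_of_mem hg')
      obtain ⟨d, hd, hdg⟩ := hT g (Finset.mem_insert_self g T)
      refine ⟨a * d, mul_ne_zero ha hd, fun g' hg' => ?_⟩
      rcases Finset.mem_insert.mp hg' with rfl | hg''
      · rw [mul_smul]
        exact Submodule.smul_mem _ _ hdg
      · rw [mul_comm, mul_smul]
        exact Submodule.smul_mem _ _ (haT g' hg'')
  obtain ⟨a, ha, haS⟩ := hgen S fun g hg => by
    rw [← hS]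
    exact Submodule.subset_span hg
  refine ⟨a, ha, fun w hw => ?_⟩
  rw [← hS] at hw
  induction hw using Submodule.span_induction with
  | mem z hz => exact haS z hz
  | zero => rw [smul_zero]; exact Submodule.zero_mem _
  | add x y _ _ hx hy => rw [smul_add]; exact Submodule.add_mem _ hx hy
  | smul d x _ hx => rw [smul_comm]; exact Submodule.smul_mem _ _ hx

/-- **EIG, the algebra in operator form.**  See the header. -/
theorem eig_alg854 [IsDomain A] [IsNoetherian A E] {G : Type*} (b : Basis (Fin 2) A V)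
    (Ψ : Module.End A V →ₐ[A] Module.End A E)
    (t : Module.End A E) (ht : ∀ x : Module.End A V, t * Ψ x = Ψ x * t)
    (r : G → Module.End A V) (I : Set G)
    (hI : ∀ σ ∈ I, ∀ v : V, r σ v - v ∈ Submodule.span A ({b 0} : Set V))
    (σ₀ : G) (hσ₀ : σ₀ ∈ I) (hσ₀1 : r σ₀ ≠ 1)
    (φ : Module.End A V) (α : A)
    (hφ : ∀ v : V, φ v - α • v ∈ Submodule.span A ({b 0} : Set V))
    (p : A)
    (hgeo : ∀ M' : Submodule A E,
      (∀ x : Module.End A V, ∀ w ∈ M', Ψ x w ∈ M') →
      (∀ d : A, d ≠ 0 → ∀ w : E, d • w ∈ M' → w ∈ M') →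
      (∃ a : A, a ≠ 0 ∧ ∀ w ∈ M', a • w ∈
        augRel854 Ψ r I ⊤ ⊔ LinearMap.range (Ψ φ * Ψ φ - t * Ψ φ + p • (1 : Module.End A E))) →
      M' ≤ augRel854 Ψ r I M')
    (e : E) : α • t e = (α ^ 2 + p) • e := by
  set P : Module.End A V := projOne854 b with hP
  set Rel : Module.End A E := Ψ φ * Ψ φ - t * Ψ φ + p • (1 : Module.End A E) with hRel
  set c : Module.End A E := (α ^ 2 + p) • (1 : Module.End A E) - α • t with hc
  have hc_apply : ∀ e : E, c e = (α ^ 2 + p) • e - α • t e := fun e => rfl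
  -- `t` and `c` commute with `Ψ`
  have htΨ : ∀ (x : Module.End A V) (e : E), t (Ψ x e) = Ψ x (t e) := by
    intro x e
    have := congrArg (fun f : Module.End A E => f e) (ht x)
    simp only [Module.End.mul_apply] at this
    exact this
  have hcΨ : ∀ (x : Module.End A V) (e : E), c (Ψ x e) = Ψ x (c e) := by
    intro x e
    rw [hc_apply, hc_apply, map_sub, map_smul, map_smul, htΨ]
  -- the decomposition `c = Rel - Ψ(φ - α)(Ψ φ + α - t)`
  have hdec : ∀ e : E, c e = Rel e - Ψ (φ - α • 1) (Ψ φ e + α • e - t e) := by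
    intro e
    have h1 : Rel e = Ψ φ (Ψ φ e) - t (Ψ φ e) + p • e := rfl
    have h2 : ∀ y : E, Ψ (φ - α • 1) y = Ψ φ y - α • y := by
      intro y
      rw [map_sub, map_smul, map_one, LinearMap.sub_apply, LinearMap.smul_apply,
        Module.End.one_apply]
    rw [hc_apply, h1, h2, map_sub, map_add, map_smul, htΨ φ e, smul_sub, smul_add, smul_smul,
      add_smul, pow_two]
    abel
  -- FROB
  obtain ⟨b', hb', hfrob⟩ := frob_mem_aug854 b Ψ r I hI σ₀ hσ₀ hσ₀1
  have hnL : ∀ v : V, (φ - α • (1 : Module.End A V)) v ∈ Submodule.span A ({b 0} : Set V) := by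
    intro v
    rw [LinearMap.sub_apply, LinearMap.smul_apply, Module.End.one_apply]
    exact hφ v
  have hbc : ∀ e : E, b' • c e ∈ augRel854 Ψ r I ⊤ ⊔ LinearMap.range Rel := by
    intro e
    rw [hdec, smul_sub]
    refine Submodule.sub_mem _ (Submodule.mem_sup_right ?_) (Submodule.mem_sup_left ?_)
    · exact ⟨b' • e, by rw [map_smul]⟩
    · exact hfrob _ hnL _
  -- the saturation of `c E`
  obtain ⟨a, ha, hasat⟩ := exists_smul_satRange854_le c
  have hM' : satRange854 c ≤ augRel854 Ψ r I (satRange854 c) := by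
    apply hgeo
    · rintro x w ⟨d, hd, y, hy⟩
      refine ⟨d, hd, Ψ x y, ?_⟩
      rw [hcΨ, hy, map_smul]
    · exact satRange854_saturated c
    · refine ⟨b' * a, mul_ne_zero hb' ha, fun w hw => ?_⟩
      obtain ⟨y, hy⟩ := hasat w hw
      rw [mul_smul, ← hy]
      exact hbc y
  -- `Ψ P` kills `c E`
  have hPc : ∀ e : E, c (Ψ P e) = 0 := by
    intro e
    rw [hcΨ]
    exact projOne854_kills_aug b Ψ r I hI
      (augRel854_mono Ψ r I le_top (hM' (range_le_satRange854 c ⟨e, rfl⟩)))
  -- spread to all of `E`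
  have hone : ∀ e : E, e = Ψ (unitUp854 b) (Ψ P (Ψ (unitDown854 b) e)) + Ψ P e := by
    intro e
    have h := congrArg (fun x : Module.End A V => Ψ x e) (one_eq_unit_decomp854 b)
    simp only [map_one, Module.End.one_apply, map_add, map_mul, LinearMap.add_apply,
      Module.End.mul_apply] at h
    exact h
  have hce : c e = 0 := by
    rw [hone e, map_add, hcΨ, hPc, hPc, map_zero, add_zero]
  rw [hc_apply, sub_eq_zero] at hce
  exact hce.symm

end Fermat.Agent.S59.NMP.H854
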