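import Fermat.Agent.S59.NMP.H854.EigAlg
import Fermat.Agent.S59.NMP.H854.BlrInt

/-!
# Row S59, cell NMP, leaf LGC — EIG, algebra for two representations (helper854), Mathlib only

`eig_alg_rep854`: `eig_alg854` with the Boston–Lenstra–Ribet homomorphism produced inside.

`ρ : G → End_A V` (`V` free of rank `2`, image spanning `End V`), `R : G → End_A E` satisfying the
characteristic polynomials of `ρ`, `t ∈ End_A E` commuting with `R`, `I ≤ G` with
`(ρ σ - 1) V ⊆ L = A b₀` and `ρ σ₁ ≠ 1` for some `σ₁ ∈ I`, `(ρ σ₀ - α) V ⊆ L`, and the hereditary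
geometric input `hgeo` for `R`.  Then `α • t e = (α² + p) • e`.
-/

set_option autoImplicit false

namespace Fermat.Agent.S59.NMP.H854

open Module

/-- **EIG, algebra for two representations.** -/
theorem eig_alg_rep854 {A : Type*} [CommRing A] [IsDomain A] {V : Type*} [AddCommGroup V]
    [Module A V] {E : Type*} [AddCommGroup E] [Module A E] [IsNoetherian A E]
    {G : Type*} [Group G] (h2 : IsUnit (2 : A)) (b : Basis (Fin 2) A V)
    (ρ : G →* Module.End A V) (R : G →* Module.End A E)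
    (hspan : Submodule.span A (Set.range ρ) = ⊤)
    (hquad : ∀ g : G, R g * R g - LinearMap.trace A V (ρ g) • R g
      + LinearMap.det (ρ g) • (1 : Module.End A E) = 0)
    (t : Module.End A E) (ht : ∀ g : G, t * R g = R g * t)
    (I : Subgroup G)
    (hI : ∀ σ ∈ I, ∀ v : V, ρ σ v - v ∈ Submodule.span A ({b 0} : Set V))
    (σ₁ : G) (hσ₁ : σ₁ ∈ I) (hσ₁ne : ρ σ₁ ≠ 1)
    (σ₀ : G) (α : A) (hφ : ∀ v : V, ρ σ₀ v - α • v ∈ Submodule.span A ({b 0} : Set V))
    (p : A) (hp0 : p ≠ 0)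
    (hgeo : ∀ M' : Submodule A E,
      (∀ σ : G, ∀ w ∈ M', R σ w ∈ M') →
      (∀ w : E, p • w ∈ M' → w ∈ M') →
      ∀ a₀ : A, a₀ ≠ 0 →
      (∀ w ∈ M', a₀ • w ∈
        Submodule.span A {z : E | ∃ σ ∈ I, ∃ m : E, z = R σ m - m} ⊔
          LinearMap.range (R σ₀ * R σ₀ - t * R σ₀ + p • (1 : Module.End A E))) →
      M' ≤ Submodule.span A {z : E | ∃ σ ∈ I, ∃ m ∈ M', z = R σ m - m})
    (e : E) : α • t e = (α ^ 2 + p) • e := by
  obtain ⟨Ψ, hΨ⟩ := blr_end854 h2 b ρ R hspan hquad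
  -- `t` commutes with `Ψ`
  have htΨ : ∀ x : Module.End A V, t * Ψ x = Ψ x * t := by
    intro x
    have hx : x ∈ Submodule.span A (Set.range ρ) := by rw [hspan]; exact Submodule.mem_top
    induction hx using Submodule.span_induction with
    | mem y hy =>
      obtain ⟨g, rfl⟩ := hy
      rw [hΨ]
      exact ht g
    | zero => rw [map_zero, mul_zero, zero_mul]
    | add y z _ _ hy hz => rw [map_add, mul_add, add_mul, hy, hz]
    | smul c y _ hy => rw [map_smul, mul_smul_comm, smul_mul_assoc, hy]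
  refine eig_alg854 b Ψ t htΨ (fun σ => ρ σ) (↑I : Set G) hI σ₁ hσ₁ hσ₁ne (ρ σ₀) α hφ p ?_ e
  rintro M' hΨM' hsat ⟨a₀, ha₀, hall⟩
  have hG : ∀ σ : G, ∀ w ∈ M', R σ w ∈ M' := by
    intro σ w hw
    have := hΨM' (ρ σ) w hw
    rwa [hΨ] at this
  have haugle : augRel854 Ψ (fun σ => ρ σ) (↑I : Set G) ⊤
      ≤ Submodule.span A {z : E | ∃ σ ∈ I, ∃ m : E, z = R σ m - m} := by
    apply Submodule.span_mono
    rintro z ⟨σ, hσ, m, -, rfl⟩
    exact ⟨σ, hσ, m, by rw [hΨ]⟩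
  have hall' : ∀ w ∈ M', a₀ • w ∈
      Submodule.span A {z : E | ∃ σ ∈ I, ∃ m : E, z = R σ m - m} ⊔
        LinearMap.range (R σ₀ * R σ₀ - t * R σ₀ + p • (1 : Module.End A E)) := by
    intro w hw
    have h1 := hall w hw
    rw [hΨ σ₀] at h1
    exact (sup_le_sup_right haugle _) h1
  have key := hgeo M' hG (hsat p hp0) a₀ ha₀ hall'
  intro w hw
  refine Submodule.span_mono ?_ (key hw)
  rintro z ⟨σ, hσ, m, hm, rfl⟩
  exact ⟨σ, hσ, m, hm, by rw [hΨ]⟩

end Fermat.Agent.S59.NMP.H854
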