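import Mathlib

/-!
# Row S59, cell NMP, leaf LGC — the eigenvalue computation (helper854), Mathlib only

Abstract form of "Eichler–Shimura at `p` on the unramified quotient":

* `V` a free module of rank `2` with basis `b`, line `L = A ∙ b 0`;
* `E` any `A`-module with an algebra map `Ψ : End_A V → End_A E` (Boston–Lenstra–Ribet:
  `E` is `V`-isotypic) and an operator `t` (`T_p`) commuting with the image of `Ψ`;
* a set `I` ("inertia") of endomorphisms of `V` with `s v - v ∈ L`, an endomorphism `φ`
  ("Frobenius") of `V` with `φ v - α v ∈ L`;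
* the congruence relation modulo the augmentation of inertia:
  `(Ψ φ)² e - t (Ψ φ e) + p e ∈ span {Ψ s e' - e' | s ∈ I}`.

Conclusion (`eig_core854`): `α • t e = (α² + p) • e` for all `e`, i.e. `t = α + p/α`.
-/

set_option autoImplicit false

namespace Fermat.Agent.S59.NMP.H854

open Module

variable {A : Type*} [CommRing A] {V : Type*} [AddCommGroup V] [Module A V]
  {E : Type*} [AddCommGroup E] [Module A E]

/-- The projection onto `b 1` along `b 0`. -/
noncomputable def projOne854 (b : Basis (Fin 2) A V) : Module.End A V :=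
  (LinearMap.toSpanSingleton A V (b 1)).comp (b.coord 1)

/-- `b 1 ↦ b 0`, `b 0 ↦ 0`. -/
noncomputable def unitUp854 (b : Basis (Fin 2) A V) : Module.End A V :=
  (LinearMap.toSpanSingleton A V (b 0)).comp (b.coord 1)

/-- `b 0 ↦ b 1`, `b 1 ↦ 0`. -/
noncomputable def unitDown854 (b : Basis (Fin 2) A V) : Module.End A V :=
  (LinearMap.toSpanSingleton A V (b 1)).comp (b.coord 0)

theorem projOne854_apply (b : Basis (Fin 2) A V) (v : V) :
    projOne854 b v = b.coord 1 v • b 1 := rfl

theorem unitUp854_apply (b : Basis (Fin 2) A V) (v : V) :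
    unitUp854 b v = b.coord 1 v • b 0 := rfl

theorem unitDown854_apply (b : Basis (Fin 2) A V) (v : V) :
    unitDown854 b v = b.coord 0 v • b 1 := rfl

/-- The projection kills the line `A ∙ b 0`. -/
theorem projOne854_eq_zero_of_mem (b : Basis (Fin 2) A V) {v : V}
    (hv : v ∈ Submodule.span A ({b 0} : Set V)) : projOne854 b v = 0 := by
  obtain ⟨a, rfl⟩ := Submodule.mem_span_singleton.mp hv
  rw [projOne854_apply, map_smul, Basis.coord_apply, Basis.repr_self,
    Finsupp.single_eq_of_ne (by decide), smul_zero, zero_smul]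

/-- `1 = e₁₂ P e₂₁ + P`. -/
theorem one_eq_unit_decomp854 (b : Basis (Fin 2) A V) :
    (1 : Module.End A V) = unitUp854 b * projOne854 b * unitDown854 b + projOne854 b := by
  refine b.ext fun i => ?_
  fin_cases i
  · simp [unitUp854_apply, projOne854_apply, unitDown854_apply, Basis.coord_apply]
  · simp [unitUp854_apply, projOne854_apply, unitDown854_apply, Basis.coord_apply]

/-- **EIG, abstract core.**  See the header. -/
theorem eig_core854 (b : Basis (Fin 2) A V) (Ψ : Module.End A V →ₐ[A] Module.End A E)
    (t : Module.End A E) (ht : ∀ x : Module.End A V, t * Ψ x = Ψ x * t)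
    (I : Set (Module.End A V))
    (hI : ∀ s ∈ I, ∀ v : V, s v - v ∈ Submodule.span A ({b 0} : Set V))
    (φ : Module.End A V) (α : A)
    (hφ : ∀ v : V, φ v - α • v ∈ Submodule.span A ({b 0} : Set V))
    (p : A)
    (hrel : ∀ e : E, Ψ φ (Ψ φ e) - t (Ψ φ e) + p • e ∈
      Submodule.span A {z : E | ∃ s ∈ I, ∃ e' : E, z = Ψ s e' - e'})
    (e : E) : α • t e = (α ^ 2 + p) • e := by
  set P : Module.End A V := projOne854 b with hP
  -- `P (s - 1) = 0` for `s ∈ I`
  have hPs : ∀ s ∈ I, P * s = P := by
    intro s hs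
    refine LinearMap.ext fun v => ?_
    have h := projOne854_eq_zero_of_mem b (hI s hs v)
    rw [map_sub, sub_eq_zero] at h
    exact h
  -- `P φ = α P`
  have hPφ : P * φ = α • P := by
    refine LinearMap.ext fun v => ?_
    have h := projOne854_eq_zero_of_mem b (hφ v)
    rw [map_sub, sub_eq_zero, map_smul] at h
    exact h
  -- `Ψ P` kills the augmentation
  have hkill : ∀ z ∈ Submodule.span A {z : E | ∃ s ∈ I, ∃ e' : E, z = Ψ s e' - e'},
      Ψ P z = 0 := by
    intro z hz
    induction hz using Submodule.span_induction with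
    | mem z hz =>
      obtain ⟨s, hs, e', rfl⟩ := hz
      rw [map_sub, ← Module.End.mul_apply, ← map_mul, hPs s hs, sub_self]
    | zero => exact map_zero _
    | add x y _ _ hx hy => rw [map_add, hx, hy, add_zero]
    | smul a x _ hx => rw [map_smul, hx, smul_zero]
  have hΨPφ : ∀ e : E, Ψ P (Ψ φ e) = α • Ψ P e := by
    intro e
    rw [← Module.End.mul_apply, ← map_mul, hPφ, map_smul, LinearMap.smul_apply]
  have htP : ∀ e : E, Ψ P (t e) = t (Ψ P e) := by
    intro e
    have := congrArg (fun f : Module.End A E => f e) (ht P)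
    simp only [Module.End.mul_apply] at this
    exact this.symm
  -- the relation on the image of `Ψ P`
  have hmain : ∀ e : E, α • t (Ψ P e) = (α ^ 2 + p) • Ψ P e := by
    intro e
    have h := hkill _ (hrel e)
    have e1 : Ψ P (Ψ φ (Ψ φ e)) = α • α • Ψ P e := by
      rw [hΨPφ (Ψ φ e), hΨPφ e]
    have e2 : Ψ P (t (Ψ φ e)) = α • t (Ψ P e) := by
      rw [htP (Ψ φ e), hΨPφ e, map_smul]
    rw [map_add, map_sub, map_smul, e1, e2] at h
    have h2 : (α ^ 2 + p) • Ψ P e - α • t (Ψ P e) = 0 := by
      rw [← h, add_smul, pow_two, mul_smul]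
      abel
    exact (sub_eq_zero.mp h2).symm
  -- spread to all of `E`
  have hone : ∀ e : E, e = Ψ (unitUp854 b) (Ψ P (Ψ (unitDown854 b) e)) + Ψ P e := by
    intro e
    have h := congrArg (fun x : Module.End A V => Ψ x e) (one_eq_unit_decomp854 b)
    simp only [map_one, Module.End.one_apply, map_add, map_mul, LinearMap.add_apply,
      Module.End.mul_apply] at h
    exact h
  have htU : ∀ e : E, t (Ψ (unitUp854 b) e) = Ψ (unitUp854 b) (t e) := by
    intro e
    have := congrArg (fun f : Module.End A E => f e) (ht (unitUp854 b))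
    simp only [Module.End.mul_apply] at this
    exact this
  conv_lhs => rw [hone e]
  conv_rhs => rw [hone e]
  rw [map_add, smul_add, smul_add, htU, ← map_smul, hmain, hmain, map_smul]

end Fermat.Agent.S59.NMP.H854
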