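import Fermat.Agent.S33.AugCore
import Fermat.Agent.S30.H529.HomTate

/-!
# Row S59, cell NMP, leaf LGC — EIG, the geometric input on the Tate eigenmodule (helper854)

`homEigen_relAt854`: the hereditary form of `S33.homEigen_geoAt` with the Eichler–Shimura
relation at `p` built in.

`M` = Tate eigenmodule of `X = Hom_ℤ(𝒪, J)` for the operators `t i` (eigenvalues `a i`), with its
Galois action `ρ` and the operator `T_p` induced by an endomorphism `tp` of `J` commuting with the
`t i`.  Assume

* (K) for `(G_ℚ, I, J)` (`S33.KeyAt`; for `J₀(N)`, `p ∤ N`, this is `S33.H692.oldAugStatement`);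
* CORE: `σ₀² x - tp (σ₀ x) + p x ∈ I_aug J[pⁿ]` for `x ∈ J[pⁿ]`.

Then every `G_ℚ`-stable, `p`-saturated submodule `M'` of `M` with
`a₀ M' ⊆ I_aug M + range (ρ(σ₀)² - T_p ρ(σ₀) + p)` for some `a₀ ≠ 0` is generated by its own
augmentation:  `M' ≤ span {ρ σ m - m | σ ∈ I, m ∈ M'}`.

Proof (pattern of `S33/EigB.lean`, helper409): `p ^ c M' ⊆ A := I_aug M + range Rel`; evaluate the
`c`-th component at representatives of `𝒪 / p ^ (c + 1)`; `Y := e (p ^ c M')` is `G_ℚ`-stable with
coordinates in `𝒮⁺` (CORE for the part `range Rel`), so `Y = I_aug Y` by (K); lift; saturation;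
Nakayama.
-/

set_option autoImplicit false
set_option linter.style.haveILetI false

noncomputable section

namespace Fermat.Agent.S59.NMP.H854

open IsLocalRing Fermat.Agent.S30 Fermat.Agent.S31 Fermat.Agent.S33

/-! ### Representatives modulo a nonzero element of a DVR with finite residue field -/

section Reps

variable {O : Type} [CommRing O] [IsDomain O] [IsDiscreteValuationRing O]
  [Finite (ResidueField O)]

/-- (Copy of `S33.exists_reps_mod_s33`, helper409, to keep the import closure small.) -/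
theorem exists_reps_mod854 {x : O} (hx : x ≠ 0) :
    ∃ (r : ℕ) (o : Fin r → O), ∀ b : O, ∃ i : Fin r, ∃ d : O, b = o i + x * d := by
  obtain ⟨n, hn⟩ := H529.exists_pow_maximalIdeal_le_span hx
  have h1 : Finite (O ⧸ maximalIdeal O ^ n) := by
    have : Finite (O ⧸ maximalIdeal O) := (inferInstance : Finite (ResidueField O))
    exact Ideal.finite_quotient_pow (IsNoetherian.noetherian _) n
  have h2 : Finite (O ⧸ Ideal.span {x}) :=
    Finite.of_surjective (Ideal.Quotient.factor hn) (Ideal.Quotient.factor_surjective hn)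
  let e := Finite.equivFin (O ⧸ Ideal.span {x})
  refine ⟨Nat.card (O ⧸ Ideal.span {x}),
    fun i => Function.surjInv Ideal.Quotient.mk_surjective (e.symm i), fun b => ?_⟩
  refine ⟨e (Ideal.Quotient.mk _ b), ?_⟩
  have h3 : Ideal.Quotient.mk (Ideal.span {x})
      (Function.surjInv Ideal.Quotient.mk_surjective (e.symm (e (Ideal.Quotient.mk _ b)))) =
      Ideal.Quotient.mk _ b :=
    (Function.surjInv_eq Ideal.Quotient.mk_surjective _).trans (e.symm_apply_apply _)
  have h4 : b - Function.surjInv Ideal.Quotient.mk_surjective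
      (e.symm (e (Ideal.Quotient.mk (Ideal.span {x}) b))) ∈ Ideal.span {x} := by
    rw [← Ideal.Quotient.eq_zero_iff_mem, map_sub, h3, sub_self]
  obtain ⟨d, hd⟩ := Ideal.mem_span_singleton'.mp h4
  exact ⟨d, by rw [mul_comm, hd]; ring⟩

end Reps

/-! ### The hereditary relation statement -/

section RelHom

variable (p : ℕ)
variable (O : Type) [CommRing O] [IsDomain O] [IsDiscreteValuationRing O]
  [Finite (ResidueField O)] [CharZero O]
variable (J : Type) [AddCommGroup J] [DistribMulAction GQ J]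
variable {ι : Type} (t : ι → J →+ J) (a : ι → O)

/-- **EIG, geometric input.**  See the header. -/
theorem homEigen_relAt854 [Fact p.Prime] (hpO : (p : O) ∈ maximalIdeal O)
    (hρ : ∀ (σ : GQ) (i : ι) (h : H529.PreHom O J),
      H529.preHomRep O J σ (H529.PreHom.post (t i) h)
        = H529.PreHom.post (t i) (H529.preHomRep O J σ h))
    (I : Subgroup GQ) (hKey : KeyAt I p J)
    (tp : J →+ J)
    (htp : ∀ (i : ι) (h : H529.PreHom O J),
      H529.PreHom.post (O := O) tp (H529.PreHom.post (t i) h)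
        = H529.PreHom.post (t i) (H529.PreHom.post tp h))
    (σ₀ : GQ)
    (hcore : ∀ (n : ℕ) (x : J), p ^ n • x = 0 →
      σ₀ • σ₀ • x - tp (σ₀ • x) + p • x ∈ iAug I (torsSub J (p ^ n)))
    (hfin : Module.Finite O
      ↥(H529.tateEigen (p : O) (fun i => H529.PreHom.post (t i)) a))
    (M' : Submodule O ↥(H529.tateEigen (p : O) (fun i => H529.PreHom.post (t i)) a))
    (hG : ∀ (σ : GQ), ∀ w ∈ M',
      H529.tateRep (ϖ := (p : O)) (t := fun i => H529.PreHom.post (t i)) (a := a)
        (H529.preHomRep O J) hρ σ w ∈ M')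
    (hsat : ∀ w : ↥(H529.tateEigen (p : O) (fun i => H529.PreHom.post (t i)) a),
      (p : O) • w ∈ M' → w ∈ M')
    (a₀ : O) (ha₀ : a₀ ≠ 0)
    (hall : ∀ w ∈ M', a₀ • w ∈
      augSpan (H529.tateRep (ϖ := (p : O)) (t := fun i => H529.PreHom.post (t i)) (a := a)
          (H529.preHomRep O J) hρ) I ⊔
        LinearMap.range
          (H529.tateRep (ϖ := (p : O)) (t := fun i => H529.PreHom.post (t i)) (a := a)
              (H529.preHomRep O J) hρ σ₀ *
            H529.tateRep (ϖ := (p : O)) (t := fun i => H529.PreHom.post (t i)) (a := a)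
              (H529.preHomRep O J) hρ σ₀ -
            H529.tateMap (ϖ := (p : O)) (t := fun i => H529.PreHom.post (t i)) (a := a)
              (H529.PreHom.post tp) htp *
              H529.tateRep (ϖ := (p : O)) (t := fun i => H529.PreHom.post (t i)) (a := a)
                (H529.preHomRep O J) hρ σ₀ +
            (p : O) • (1 : Module.End O
              ↥(H529.tateEigen (p : O) (fun i => H529.PreHom.post (t i)) a)))) :
    M' ≤ Submodule.span O {z | ∃ σ ∈ I, ∃ m ∈ M',
      z = H529.tateRep (ϖ := (p : O)) (t := fun i => H529.PreHom.post (t i)) (a := a)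
        (H529.preHomRep O J) hρ σ m - m} := by
  have hp0 : (p : O) ≠ 0 := by
    exact_mod_cast (Fact.out : p.Prime).ne_zero
  -- abbreviations
  set ρ := H529.tateRep (ϖ := (p : O)) (t := fun i => H529.PreHom.post (t i)) (a := a)
      (H529.preHomRep O J) hρ with hρdef
  set Tp := H529.tateMap (ϖ := (p : O)) (t := fun i => H529.PreHom.post (t i)) (a := a)
      (H529.PreHom.post tp) htp with hTp
  set Rel : Module.End O ↥(H529.tateEigen (p : O) (fun i => H529.PreHom.post (t i)) a) :=
    ρ σ₀ * ρ σ₀ - Tp * ρ σ₀ + (p : O) • 1 with hRel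
  set AugM' : Submodule O ↥(H529.tateEigen (p : O) (fun i => H529.PreHom.post (t i)) a) :=
    Submodule.span O {z | ∃ σ ∈ I, ∃ m ∈ M', z = ρ σ m - m} with hAugM'
  -- `p ^ c M' ≤ A`
  obtain ⟨c, d, hcd⟩ := H529.exists_dvd_pow_of_mem_maximalIdeal hpO ha₀
  have hpc : ∀ m ∈ M', (p : O) ^ c • m ∈ augSpan ρ I ⊔ LinearMap.range Rel := by
    intro m hm
    rw [hcd, mul_comm, mul_smul]
    exact Submodule.smul_mem _ _ (hall m hm)
  obtain ⟨r, o, ho⟩ := exists_reps_mod854 (pow_ne_zero (c + 1) hp0)
  -- evaluation of the `c`-th component at the representatives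
  let e : ↥(H529.tateEigen (p : O) (fun i => H529.PreHom.post (t i)) a) →+ (Fin r → J) :=
    { toFun := fun v i => H529.PreHom.toHom ((v : ℕ → H529.PreHom O J) c) (o i)
      map_zero' := by
        funext i
        rfl
      map_add' := by
        intro v w
        funext i
        rfl }
  have he : ∀ v i, e v i = H529.PreHom.toHom ((v : ℕ → H529.PreHom O J) c) (o i) :=
    fun _ _ => rfl
  have heq : ∀ (σ : GQ) v, e (ρ σ v) = σ • e v := by
    intro σ v
    funext i
    rfl
  -- the kernel of `e`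
  have hker : ∀ v, e v = 0 → ∃ w : ↥(H529.tateEigen (p : O)
      (fun i => H529.PreHom.post (t i)) a), v = (p : O) ^ (c + 1) • w := by
    intro v hv
    have hvi : ∀ i, H529.PreHom.toHom ((v : ℕ → H529.PreHom O J) c) (o i) = 0 := by
      intro i
      rw [← he, hv]
      rfl
    have h0 : (v : ℕ → H529.PreHom O J) c = 0 := by
      apply H529.PreHom.ext
      intro x
      obtain ⟨i, d', hd'⟩ := ho x
      have h1 : H529.PreHom.toHom ((v : ℕ → H529.PreHom O J) c) ((p : O) ^ (c + 1) * d') = 0 := by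
        rw [← H529.PreHom.smul_apply, H529.tate_pow_succ_smul v.2 c]
        rfl
      rw [hd', map_add, hvi i, h1, add_zero]
      rfl
    have hlt : ∀ m, m < c + 1 → (v : ℕ → H529.PreHom O J) m = 0 := by
      intro m hm
      obtain ⟨k, rfl⟩ : ∃ k, c = m + k := ⟨c - m, by omega⟩
      rw [← H529.tate_pow_smul v.2 k m, h0, smul_zero]
    obtain ⟨w, hw, hvw⟩ := H529.tate_exists_eq_pow_smul v.2 (c + 1) hlt
    refine ⟨⟨w, hw⟩, ?_⟩
    apply Subtype.ext
    rw [hvw]
    rfl
  -- values of the `c`-th component are killed by `p ^ (c + 1)`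
  have hval : ∀ (v : ↥(H529.tateEigen (p : O) (fun i => H529.PreHom.post (t i)) a)) (x : O),
      H529.PreHom.toHom ((v : ℕ → H529.PreHom O J) c) x ∈ torsSub J (p ^ (c + 1)) := by
    intro v x
    rw [mem_torsSub, ← H529.PreHom.natCast_pow_smul_apply, H529.tate_pow_succ_smul v.2 c]
    rfl
  -- elements of `I_aug M` have `c`-th component with values in `I_aug J[p ^ (c + 1)]`
  have haug : ∀ v : ↥(H529.tateEigen (p : O) (fun i => H529.PreHom.post (t i)) a),
      v ∈ augSpan ρ I → ∀ x : O,
        H529.PreHom.toHom ((v : ℕ → H529.PreHom O J) c) x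
          ∈ iAug I (torsSub J (p ^ (c + 1))) := by
    intro v hv
    unfold augSpan at hv
    induction hv using Submodule.span_induction with
    | mem z hz =>
      obtain ⟨σ, hσ, m, rfl⟩ := hz
      intro x
      exact smul_sub_mem_iAug hσ (hval m x)
    | zero =>
      intro x
      exact AddSubgroup.zero_mem _
    | add z w _ _ hz hw =>
      intro x
      exact AddSubgroup.add_mem _ (hz x) (hw x)
    | smul b z _ hz =>
      intro x
      exact hz (b * x)
  -- elements of `range Rel` too (CORE)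
  have hrel : ∀ v : ↥(H529.tateEigen (p : O) (fun i => H529.PreHom.post (t i)) a),
      v ∈ LinearMap.range Rel → ∀ x : O,
        H529.PreHom.toHom ((v : ℕ → H529.PreHom O J) c) x
          ∈ iAug I (torsSub J (p ^ (c + 1))) := by
    rintro _ ⟨w, rfl⟩ x
    have h1 : H529.PreHom.toHom (((Rel w : ↥(H529.tateEigen (p : O)
        (fun i => H529.PreHom.post (t i)) a)) : ℕ → H529.PreHom O J) c) x
        = σ₀ • σ₀ • H529.PreHom.toHom ((w : ℕ → H529.PreHom O J) c) x
          - tp (σ₀ • H529.PreHom.toHom ((w : ℕ → H529.PreHom O J) c) x)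
          + p • H529.PreHom.toHom ((w : ℕ → H529.PreHom O J) c) x := by
      rw [← H529.PreHom.natCast_smul_apply]
      rfl
    rw [h1]
    exact hcore (c + 1) _ (mem_torsSub.mp (hval w x))
  have hA : ∀ v : ↥(H529.tateEigen (p : O) (fun i => H529.PreHom.post (t i)) a),
      v ∈ augSpan ρ I ⊔ LinearMap.range Rel → ∀ x : O,
        H529.PreHom.toHom ((v : ℕ → H529.PreHom O J) c) x
          ∈ iAug I (torsSub J (p ^ (c + 1))) := by
    intro v hv x
    obtain ⟨v₁, hv₁, v₂, hv₂, rfl⟩ := Submodule.mem_sup.mp hv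
    exact AddSubgroup.add_mem _ (haug v₁ hv₁ x) (hrel v₂ hv₂ x)
  -- the subgroup `Y = e (p ^ c M')`
  let φ : ↥(H529.tateEigen (p : O) (fun i => H529.PreHom.post (t i)) a) →+ (Fin r → J) :=
    e.comp (DistribSMul.toAddMonoidHom _ ((p : O) ^ c))
  have hφ : ∀ v, φ v = e ((p : O) ^ c • v) := fun _ => rfl
  have hφeq : ∀ (σ : GQ) v, φ (ρ σ v) = σ • φ v := by
    intro σ v
    rw [hφ, hφ, ← map_smul, heq]
  set Y : AddSubgroup (Fin r → J) := M'.toAddSubgroup.map φ with hY
  have hYG : ∀ (σ : GQ), ∀ y ∈ Y, σ • y ∈ Y := by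
    rintro σ _ ⟨v, hv, rfl⟩
    exact ⟨ρ σ v, hG σ v hv, hφeq σ v⟩
  have hYS : ∀ y ∈ Y, ∀ i, InSPlus I p (y i) := by
    rintro _ ⟨v, hv, rfl⟩ i
    refine ⟨?_, c + 1, ?_⟩
    · rw [hφ, he, ← H529.PreHom.natCast_smul_apply]
      have h1 : (p : O) • (((p : O) ^ c • v : ↥(H529.tateEigen (p : O)
          (fun i => H529.PreHom.post (t i)) a)) : ℕ → H529.PreHom O J) c
          = (p : O) ^ (c + 1) • (v : ℕ → H529.PreHom O J) c := by
        rw [pow_succ', mul_smul]
        rfl
      rw [h1, H529.tate_pow_succ_smul v.2 c]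
      rfl
    · rw [hφ, he]
      exact hA _ (hpc v hv) (o i)
  have hYkey : Y ≤ iAug I Y := keyAt_pi hKey r Y hYG hYS
  -- lifting the augmentation of `Y`
  have hlift : ∀ y ∈ iAug I Y, ∃ v ∈ AugM', φ v = y := by
    intro y hy
    unfold iAug at hy
    induction hy using AddSubgroup.closure_induction with
    | mem z hz =>
      obtain ⟨σ, hσ, y', ⟨v', hv', rfl⟩, rfl⟩ := hz
      refine ⟨ρ σ v' - v', Submodule.subset_span ⟨σ, hσ, v', hv', rfl⟩, ?_⟩
      rw [map_sub, hφeq]
    | zero => exact ⟨0, Submodule.zero_mem _, map_zero φ⟩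
    | add z w _ _ hz hw =>
      obtain ⟨v, hv, rfl⟩ := hz
      obtain ⟨v', hv', rfl⟩ := hw
      exact ⟨v + v', Submodule.add_mem _ hv hv', map_add φ v v'⟩
    | neg z _ hz =>
      obtain ⟨v, hv, rfl⟩ := hz
      exact ⟨-v, Submodule.neg_mem _ hv, map_neg φ v⟩
  -- `I_aug M' ≤ M'`
  have hAugle : AugM' ≤ M' := by
    rw [hAugM', Submodule.span_le]
    rintro z ⟨σ, _, m, hm, rfl⟩
    exact M'.sub_mem (hG σ m hm) hm
  -- `M' ≤ I_aug M' + 𝔪 M'`
  have hstep : M' ≤ AugM' ⊔ maximalIdeal O • M' := by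
    intro m hm
    obtain ⟨v, hv, hvm⟩ := hlift (φ m) (hYkey ⟨m, hm, rfl⟩)
    have h0 : e ((p : O) ^ c • (m - v)) = 0 := by
      rw [← hφ, map_sub, hvm, sub_self]
    obtain ⟨w, hw⟩ := hker _ h0
    have h1 : m - v = (p : O) • w := by
      have h2 : (p : O) ^ c • (m - v - (p : O) • w) = 0 := by
        rw [smul_sub, hw, pow_succ, mul_smul, sub_self]
      have h3 : (m - v - (p : O) • w : ↥(H529.tateEigen (p : O)
          (fun i => H529.PreHom.post (t i)) a)) = 0 := by
        apply Subtype.ext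
        funext n
        have h4 := H529.tate_pow_smul (m - v - (p : O) • w).2 c n
        have h5 := congrFun (congrArg Subtype.val h2) (n + c)
        rw [← h4]
        exact h5
      exact sub_eq_zero.mp h3
    have hwM' : w ∈ M' := by
      apply hsat
      rw [← h1]
      exact M'.sub_mem hm (hAugle hv)
    have h6 : m = v + (p : O) • w := by
      rw [← h1]; abel
    rw [h6]
    exact Submodule.add_mem_sup hv (Submodule.smul_mem_smul hpO hwM')
  -- Nakayama
  have hfg : M'.FG := by
    haveI : IsNoetherian O ↥(H529.tateEigen (p : O) (fun i => H529.PreHom.post (t i)) a) :=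
      isNoetherian_of_isNoetherianRing_of_finite O _
    exact IsNoetherian.noetherian M'
  exact Submodule.le_of_le_smul_of_le_jacobson_bot hfg
    (IsLocalRing.maximalIdeal_le_jacobson ⊥) hstep

end RelHom

end Fermat.Agent.S59.NMP.H854
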