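import Fermat.Agent.S30.H529.HomTate
import Fermat.Agent.S30.H990.Interface
import Fermat.Agent.S30.H330.AdicDefs

/-!
# Row S59, cell NMP, leaf LGC — the Tate eigenmodule, explicitly (helper854)

The Tate eigenmodule `M = tateEigen p (T_ℓ)_{ℓ ∉ S} (a_ℓ)` of `X = Hom_ℤ(𝒪, J₀(N))`, with its
Galois action `tateRep` — the module used in rows S30, S32, S33 (`S30.H529.adicModule_of_torsion`,
`S33.exists_geo_homEigenmodule`), but NOT hidden behind an existential, so that further operators
(`T_p`) can act on it.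

* `tmod_free854`, `tmod_finite854`: `M` is finite free;
* `adicEigenModule854`: `M` (if nontrivial) is an `S30.H990.AdicEigenModule`;
* `seqOfHom_mem854`: an eigen-hom `f : Frac 𝒪 →+ J` gives the element `seqOfHom p f` of `M`.
(The proofs are those of `S33.exists_geo_homEigenmodule` / `S33.geoEigenStatement_of_chain`,
helper409/helper32/helper529.)
-/

set_option autoImplicit false
set_option linter.style.haveILetI false
set_option linter.unusedSectionVars false

noncomputable section

namespace Fermat.Agent.S59.NMP.H854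

open IsLocalRing Fermat.Agent.S30 Fermat.Agent.S29 ModularCurve

/-- `Gal(ℚ̄/ℚ)`. -/
abbrev GQ854 : Type := AlgebraicClosure ℚ ≃ₐ[ℚ] AlgebraicClosure ℚ

section General

variable {p : ℕ}
variable {O : Type} [CommRing O] [IsDomain O] [IsDiscreteValuationRing O]
variable {J : Type} [AddCommGroup J] [DistribMulAction GQ854 J]
variable {ι : Type} (t : ι → J →+ J) (a : ι → O)

/-- The Galois action on `Hom(𝒪, J)` commutes with Galois-equivariant operators. -/
theorem preHomRep_comm854 (ht : ∀ i (σ : GQ854) (x : J), σ • t i x = t i (σ • x))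
    (σ : GQ854) (i : ι) (h : H529.PreHom O J) :
    H529.preHomRep O J σ (H529.PreHom.post (t i) h)
      = H529.PreHom.post (t i) (H529.preHomRep O J σ h) := by
  apply H529.PreHom.ext
  intro x
  simp only [H529.preHomRep_apply, H529.PreHom.post_apply]
  exact ht i σ _

/-- An operator of `J` commuting with the `t i` induces an operator commuting with them on
`Hom(𝒪, J)`. -/
theorem post_comm854 (tp : J →+ J) (htp : ∀ i (x : J), tp (t i x) = t i (tp x))
    (i : ι) (h : H529.PreHom O J) :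
    H529.PreHom.post (O := O) tp (H529.PreHom.post (t i) h)
      = H529.PreHom.post (t i) (H529.PreHom.post tp h) := by
  apply H529.PreHom.ext
  intro x
  simp only [H529.PreHom.post_apply]
  exact htp i _

variable [IsAdicComplete (maximalIdeal O) O] [Finite (ResidueField O)] [CharZero O]

theorem tmod_fgTorsion854 (hp : p.Prime) (hfin : {x : J | p • x = 0}.Finite) :
    ∃ Y : Submodule O (H529.PreHom O J), Y.FG ∧
      ∀ h : H529.PreHom O J, (p : O) • h = 0 → h ∈ Y := by
  have hϖ0 : (p : O) ≠ 0 := by exact_mod_cast hp.ne_zero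
  have hfinX := H529.preHom_torsion_finite (O := O) (J := J) p hϖ0 hfin
  exact ⟨Submodule.span O {h : H529.PreHom O J | (p : O) • h = 0},
    Submodule.fg_span hfinX, fun h hh => Submodule.subset_span hh⟩

theorem tmod_free854 (hp : p.Prime) (hpO : (p : O) ∈ maximalIdeal O)
    (hfin : {x : J | p • x = 0}.Finite) :
    Module.Free O ↥(H529.tateEigen (p : O) (fun i => H529.PreHom.post (t i)) a) := by
  have hϖ0 : (p : O) ≠ 0 := by exact_mod_cast hp.ne_zero
  exact H529.tateEigen_free (t := fun i => H529.PreHom.post (t i)) (a := a) hpO hϖ0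
    (tmod_fgTorsion854 hp hfin)

theorem tmod_finite854 (hp : p.Prime) (hpO : (p : O) ∈ maximalIdeal O)
    (hfin : {x : J | p • x = 0}.Finite) :
    Module.Finite O ↥(H529.tateEigen (p : O) (fun i => H529.PreHom.post (t i)) a) := by
  have hϖ0 : (p : O) ≠ 0 := by exact_mod_cast hp.ne_zero
  exact H529.tateEigen_finite (t := fun i => H529.PreHom.post (t i)) (a := a) hpO hϖ0
    (tmod_fgTorsion854 hp hfin)

/-- Values of a `p ^ k`-torsion element of `Hom(𝒪, J)`. -/
theorem preHom_val_tors854 (k : ℕ) (h : H529.PreHom O J) (hh : (p : O) ^ k • h = 0) (x : O) :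
    p ^ k • H529.PreHom.toHom h x = 0 := by
  rw [← H529.PreHom.natCast_pow_smul_apply, hh]
  rfl

/-- Continuity of the action on the Tate eigenmodule. -/
theorem tmod_cont854 (hpO : (p : O) ∈ maximalIdeal O)
    (hsm : ∀ x : J, ∃ L : IntermediateField ℚ (AlgebraicClosure ℚ), FiniteDimensional ℚ L ∧
      ∀ σ : GQ854, (∀ y ∈ L, σ y = y) → σ • x = x)
    (hfin : {x : J | p • x = 0}.Finite)
    (hρ : ∀ (σ : GQ854) (i : ι) (h : H529.PreHom O J),
      H529.preHomRep O J σ (H529.PreHom.post (t i) h)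
        = H529.PreHom.post (t i) (H529.preHomRep O J σ h)) :
    GaloisActionIsAdicContinuous O
      (H529.tateRep (ϖ := (p : O)) (t := fun i => H529.PreHom.post (t i)) (a := a)
        (H529.preHomRep O J) hρ) := by
  intro n
  obtain ⟨L, hL, hLfix⟩ := H529.exists_common_level {x : J | p ^ n • x = 0}
    (H529.finite_torsion_pow J p hfin n) (fun x _ => hsm x)
  refine ⟨L, hL, fun σ hσ m => ?_⟩
  apply H529.tateRep_sub_mem (H529.preHomRep O J) hρ hpO n σ
  intro h hh
  apply H529.PreHom.ext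
  intro x
  rw [H529.preHomRep_apply]
  exact hLfix σ hσ _ (preHom_val_tors854 n h hh x)

/-- Elements acting trivially on the `p`-power torsion act trivially on the Tate eigenmodule. -/
theorem tmod_trivial854
    (hρ : ∀ (σ : GQ854) (i : ι) (h : H529.PreHom O J),
      H529.preHomRep O J σ (H529.PreHom.post (t i) h)
        = H529.PreHom.post (t i) (H529.preHomRep O J σ h))
    (σ : GQ854) (hσ : ∀ x : J, (∃ n : ℕ, p ^ n • x = 0) → σ • x = x) :
    H529.tateRep (ϖ := (p : O)) (t := fun i => H529.PreHom.post (t i)) (a := a)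
        (H529.preHomRep O J) hρ σ = 1 := by
  apply H529.tateRep_eq_one
  rintro h ⟨k, hh⟩
  apply H529.PreHom.ext
  intro x
  rw [H529.preHomRep_apply]
  exact hσ _ ⟨k, preHom_val_tors854 k h hh x⟩

/-- Quadratic relations on the `p`-power torsion give quadratic relations on the Tate
eigenmodule. -/
theorem tmod_quadratic854
    (hρ : ∀ (σ : GQ854) (i : ι) (h : H529.PreHom O J),
      H529.preHomRep O J σ (H529.PreHom.post (t i) h)
        = H529.PreHom.post (t i) (H529.preHomRep O J σ h))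
    (i : ι) (n : ℕ) (σ : GQ854)
    (hσ : ∀ x : J, (∃ k : ℕ, p ^ k • x = 0) → σ • σ • x - t i (σ • x) + n • x = 0) :
    H529.tateRep (ϖ := (p : O)) (t := fun i => H529.PreHom.post (t i)) (a := a)
        (H529.preHomRep O J) hρ σ *
      H529.tateRep (ϖ := (p : O)) (t := fun i => H529.PreHom.post (t i)) (a := a)
        (H529.preHomRep O J) hρ σ -
      a i • H529.tateRep (ϖ := (p : O)) (t := fun i => H529.PreHom.post (t i)) (a := a)
        (H529.preHomRep O J) hρ σ +
      (n : O) • (1 : Module.End O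
        ↥(H529.tateEigen (p : O) (fun i => H529.PreHom.post (t i)) a)) = 0 := by
  apply H529.tateRep_quadratic
  rintro h ⟨k, hh⟩
  apply H529.PreHom.ext
  intro x
  have h1 := hσ (H529.PreHom.toHom h x) ⟨k, preHom_val_tors854 k h hh x⟩
  simp only [H529.PreHom.toHom_add, H529.PreHom.toHom_sub, AddMonoidHom.add_apply,
    AddMonoidHom.sub_apply, H529.preHomRep_apply, H529.PreHom.post_apply,
    H529.PreHom.natCast_smul_apply, H529.PreHom.toHom_zero, AddMonoidHom.zero_apply]
  exact h1

/-- The sequence of an eigen-hom is in the Tate eigenmodule. -/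
theorem seqOfHom_mem854 (hp : p.Prime)
    (f : FractionRing O →+ J) (hf0 : ∀ r : O, f (algebraMap O (FractionRing O) r) = 0)
    (hfe : ∀ i x, t i (f x) = f (algebraMap O (FractionRing O) (a i) * x)) :
    H529.seqOfHom p f ∈ H529.tateEigen (p : O) (fun i => H529.PreHom.post (t i)) a := by
  have hϖ0 : (p : O) ≠ 0 := by exact_mod_cast hp.ne_zero
  have hpL : algebraMap O (FractionRing O) (p : O) ≠ 0 := by
    intro h
    exact hϖ0 ((IsFractionRing.injective O (FractionRing O)) (by rw [h, map_zero]))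
  refine ⟨?_, ?_, ?_⟩
  · apply H529.PreHom.ext
    intro x
    rw [H529.PreHom.smul_apply, H529.seqOfHom_apply,
      (algebraMap O (FractionRing O)).map_mul]
    have : algebraMap O (FractionRing O) (p : O) * algebraMap O (FractionRing O) x
        * (algebraMap O (FractionRing O) (p : O) ^ (0 + 1))⁻¹
        = algebraMap O (FractionRing O) x := by
      field_simp
      ring
    rw [this, hf0]
    rfl
  · intro n
    apply H529.PreHom.ext
    intro x
    rw [H529.PreHom.smul_apply, H529.seqOfHom_apply, H529.seqOfHom_apply,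
      (algebraMap O (FractionRing O)).map_mul]
    congr 1
    field_simp
    ring
  · intro i n
    apply H529.PreHom.ext
    intro x
    rw [H529.PreHom.smul_apply, H529.seqOfHom_apply]
    simp only [H529.PreHom.post_apply]
    rw [H529.seqOfHom_apply, hfe, (algebraMap O (FractionRing O)).map_mul, mul_assoc]

/-- Every element of `Frac 𝒪` is `x / p ^ (n + 1)` with `x ∈ 𝒪`. -/
theorem exists_eq_div_pow854 (hp : p.Prime) (hpO : (p : O) ∈ maximalIdeal O)
    (y : FractionRing O) :
    ∃ (n : ℕ) (x : O), y = algebraMap O (FractionRing O) x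
      * (algebraMap O (FractionRing O) (p : O) ^ (n + 1))⁻¹ := by
  have hϖ0 : (p : O) ≠ 0 := by exact_mod_cast hp.ne_zero
  have hpL : algebraMap O (FractionRing O) (p : O) ≠ 0 := by
    intro h
    exact hϖ0 ((IsFractionRing.injective O (FractionRing O)) (by rw [h, map_zero]))
  obtain ⟨x, s, hs, rfl⟩ := IsFractionRing.div_surjective (A := O) y
  have hs0 : s ≠ 0 := nonZeroDivisors.ne_zero hs
  obtain ⟨k, c, hc⟩ := H529.exists_dvd_pow_of_mem_maximalIdeal hpO hs0
  have hsL : algebraMap O (FractionRing O) s ≠ 0 := by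
    intro h
    exact hs0 ((IsFractionRing.injective O (FractionRing O)) (by rw [h, map_zero]))
  refine ⟨k, x * c * (p : O), ?_⟩
  have h3 : algebraMap O (FractionRing O) (p : O) ^ k
      = algebraMap O (FractionRing O) s * algebraMap O (FractionRing O) c := by
    rw [← map_pow, hc, map_mul]
  have hcL : algebraMap O (FractionRing O) c ≠ 0 := by
    intro h
    rw [h, mul_zero] at h3
    exact hpL (pow_eq_zero_iff (by
      intro hk
      subst hk
      simp at h3) |>.mp h3)
  rw [pow_succ, h3, (algebraMap O (FractionRing O)).map_mul,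
    (algebraMap O (FractionRing O)).map_mul]
  field_simp

end General

/-! ### The eigenmodule of `J₀(N)` -/

section JZero

variable (p N : ℕ) [NeZero N] (S : Finset ℕ)
variable (O : Type) [CommRing O] [IsDomain O] [IsDiscreteValuationRing O]
  [IsAdicComplete (maximalIdeal O) O] [Finite (ResidueField O)] [CharZero O]
variable (a : ℕ → O)

/-- The index set of the family: the primes outside `S`. -/
abbrev Idx854 : Type := {ℓ : Nat.Primes // (ℓ : ℕ) ∉ S}

/-- The Hecke operators `T_ℓ`, `ℓ ∉ S`, on `J₀(N)`. -/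
def tOp854 (i : Idx854 S) : JZero N →+ JZero N := (heckeOperatorBar N i.1).toAddMonoidHom

@[simp] theorem tOp854_apply (i : Idx854 S) (x : JZero N) :
    tOp854 N S i x = heckeOperatorBar N i.1 x := rfl

/-- The Tate eigenmodule of `Hom(𝒪, J₀(N))` for the `T_ℓ`, `ℓ ∉ S`, with eigenvalues `a ℓ`. -/
abbrev TMod854 : Submodule O (ℕ → H529.PreHom O (JZero N)) :=
  H529.tateEigen (p : O) (fun i : Idx854 S => H529.PreHom.post (tOp854 N S i)) (fun i => a i.1)

theorem tOp854_galois (hGH : Fermat.Agent.S30.H330.GaloisHeckeStatement N)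
    (i : Idx854 S) (σ : GQ854) (x : JZero N) : σ • tOp854 N S i x = tOp854 N S i (σ • x) :=
  hGH σ i.1 x

/-- The Galois action on the Tate eigenmodule. -/
def tRep854 (hGH : Fermat.Agent.S30.H330.GaloisHeckeStatement N) :
    GQ854 →* Module.End O ↥(TMod854 p N S O a) :=
  H529.tateRep (ϖ := (p : O)) (t := fun i : Idx854 S => H529.PreHom.post (tOp854 N S i))
    (a := fun i => a i.1) (H529.preHomRep O (JZero N))
    (preHomRep_comm854 (tOp854 N S) (tOp854_galois N S hGH))

theorem tRep854_apply (hGH : Fermat.Agent.S30.H330.GaloisHeckeStatement N) (σ : GQ854) :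
    tRep854 p N S O a hGH σ =
      H529.tateRep (ϖ := (p : O)) (t := fun i : Idx854 S => H529.PreHom.post (tOp854 N S i))
        (a := fun i => a i.1) (H529.preHomRep O (JZero N))
        (preHomRep_comm854 (tOp854 N S) (tOp854_galois N S hGH)) σ := rfl

theorem tRep854_cont [Fact p.Prime] (hpO : (p : O) ∈ maximalIdeal O)
    (hGH : Fermat.Agent.S30.H330.GaloisHeckeStatement N)
    (hSm : Fermat.Agent.S30.H330.SmoothStatement N)
    (hF : {x : JZero N | p • x = 0}.Finite) :
    GaloisActionIsAdicContinuous O (tRep854 p N S O a hGH) :=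
  tmod_cont854 (tOp854 N S) (fun i => a i.1) hpO (fun x => hSm x) hF _

theorem tRep854_unram [Fact p.Prime]
    (hGH : Fermat.Agent.S30.H330.GaloisHeckeStatement N)
    (hT : Fermat.Agent.S30.H330.TorsionRelations N p)
    (q : ℕ) (hq : q.Prime) (hqN : ¬ q ∣ N) (hqp : q ≠ p)
    (P : ValuationSubring (AlgebraicClosure ℚ)) (hP : P.LiesOverPrime q)
    (σ : GQ854) (hσ : σ ∈ P.inertiaSubgroupIn ℚ) : tRep854 p N S O a hGH σ = 1 := by
  have hp : p.Prime := Fact.out
  have hdvd : ¬ q ∣ N * p := by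
    intro hdiv
    rcases (Nat.Prime.dvd_mul hq).1 hdiv with h1 | h1
    · exact hqN h1
    · exact hqp ((Nat.prime_dvd_prime_iff_eq hq hp).1 h1)
  exact tmod_trivial854 (tOp854 N S) (fun i => a i.1) _ σ
    fun x hx => (hT q hq hdvd P hP).1 σ hσ x hx

theorem tRep854_frob [Fact p.Prime]
    (hGH : Fermat.Agent.S30.H330.GaloisHeckeStatement N)
    (hT : Fermat.Agent.S30.H330.TorsionRelations N p)
    (hpS : p ∈ S)
    (ℓ : ℕ) (hℓ : ℓ.Prime) (hℓN : ¬ ℓ ∣ N) (hℓS : ℓ ∉ (↑S : Set ℕ))
    (A : ValuationSubring (AlgebraicClosure ℚ)) (hA : A.LiesOverPrime ℓ)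
    (σ : GQ854) (hσ : A.IsFrobeniusAt σ ℓ) :
    tRep854 p N S O a hGH σ * tRep854 p N S O a hGH σ - a ℓ • tRep854 p N S O a hGH σ
      + (ℓ : O) • (1 : Module.End O ↥(TMod854 p N S O a)) = 0 := by
  have hp : p.Prime := Fact.out
  have hℓS' : ℓ ∉ S := fun hmem => hℓS (Finset.mem_coe.mpr hmem)
  have hℓp : ℓ ≠ p := fun h => hℓS' (h ▸ hpS)
  have hdvd : ¬ ℓ ∣ N * p := by
    intro hdiv
    rcases (Nat.Prime.dvd_mul hℓ).1 hdiv with h1 | h1
    · exact hℓN h1
    · exact hℓp ((Nat.prime_dvd_prime_iff_eq hℓ hp).1 h1)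
  exact tmod_quadratic854 (p := p) (tOp854 N S) (fun i => a i.1)
    (preHomRep_comm854 (tOp854 N S) (tOp854_galois N S hGH)) ⟨⟨ℓ, hℓ⟩, hℓS'⟩ ℓ σ
    fun x hx => (hT ℓ hℓ hdvd A hA).2 σ hσ x hx

theorem tRep854_frob' [Fact p.Prime]
    (hGH : Fermat.Agent.S30.H330.GaloisHeckeStatement N)
    (hT : Fermat.Agent.S30.H330.TorsionRelations N p)
    (hpS : p ∈ S)
    (χ : CuspForm.heckeAlgebra N 2 (↑S : Set ℕ) →+* O)
    (hχ : ∀ (ℓ : ℕ) (hℓ : ℓ.Prime) (hℓN : ¬ ℓ ∣ N) (hℓS : ℓ ∉ (↑S : Set ℕ)),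
      χ (CuspForm.heckeAlgebra.T hℓ hℓN hℓS) = a ℓ)
    (ℓ : ℕ) (hℓ : ℓ.Prime) (hℓN : ¬ ℓ ∣ N) (hℓS : ℓ ∉ (↑S : Set ℕ))
    (A : ValuationSubring (AlgebraicClosure ℚ)) (hA : A.LiesOverPrime ℓ)
    (σ : GQ854) (hσ : A.IsFrobeniusAt σ ℓ) :
    tRep854 p N S O a hGH σ * tRep854 p N S O a hGH σ
      - χ (CuspForm.heckeAlgebra.T hℓ hℓN hℓS) • tRep854 p N S O a hGH σ
      + (ℓ : O) • (1 : Module.End O ↥(TMod854 p N S O a)) = 0 := by
  have key : ∀ c : O, c = a ℓ →
      tRep854 p N S O a hGH σ * tRep854 p N S O a hGH σ - c • tRep854 p N S O a hGH σ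
        + (ℓ : O) • (1 : Module.End O ↥(TMod854 p N S O a)) = 0 := by
    intro c hc
    subst hc
    exact tRep854_frob p N S O a hGH hT hpS ℓ hℓ hℓN hℓS A hA σ hσ
  exact key _ (hχ ℓ hℓ hℓN hℓS)

/-- The adic eigenmodule structure on the Tate eigenmodule (if it is nontrivial). -/
def adicEigenModule854 [Fact p.Prime] (hpO : (p : O) ∈ maximalIdeal O)
    (hGH : Fermat.Agent.S30.H330.GaloisHeckeStatement N)
    (hSm : Fermat.Agent.S30.H330.SmoothStatement N)
    (hF : {x : JZero N | p • x = 0}.Finite)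
    (hT : Fermat.Agent.S30.H330.TorsionRelations N p)
    (hpS : p ∈ S)
    (χ : CuspForm.heckeAlgebra N 2 (↑S : Set ℕ) →+* O)
    (hχ : ∀ (ℓ : ℕ) (hℓ : ℓ.Prime) (hℓN : ¬ ℓ ∣ N) (hℓS : ℓ ∉ (↑S : Set ℕ)),
      χ (CuspForm.heckeAlgebra.T hℓ hℓN hℓS) = a ℓ)
    (hnt : Nontrivial ↥(TMod854 p N S O a)) :
    Fermat.Agent.S30.H990.AdicEigenModule p N S O χ :=
  letI := tmod_free854 (tOp854 N S) (fun i => a i.1) (Fact.out : p.Prime) hpO hF
  letI := tmod_finite854 (tOp854 N S) (fun i => a i.1) (Fact.out : p.Prime) hpO hF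
  { M := ↥(TMod854 p N S O a)
    ρ := tRep854 p N S O a hGH
    cont := tRep854_cont p N S O a hpO hGH hSm hF
    unram := tRep854_unram p N S O a hGH hT
    frob := tRep854_frob' p N S O a hGH hT hpS χ hχ }

/-- A quadratic relation on the packaged eigenmodule is a quadratic relation for `tRep854`. -/
theorem adicEigenModule854_rel [Fact p.Prime] (hpO : (p : O) ∈ maximalIdeal O)
    (hGH : Fermat.Agent.S30.H330.GaloisHeckeStatement N)
    (hSm : Fermat.Agent.S30.H330.SmoothStatement N)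
    (hF : {x : JZero N | p • x = 0}.Finite)
    (hT : Fermat.Agent.S30.H330.TorsionRelations N p)
    (hpS : p ∈ S)
    (χ : CuspForm.heckeAlgebra N 2 (↑S : Set ℕ) →+* O)
    (hχ : ∀ (ℓ : ℕ) (hℓ : ℓ.Prime) (hℓN : ¬ ℓ ∣ N) (hℓS : ℓ ∉ (↑S : Set ℕ)),
      χ (CuspForm.heckeAlgebra.T hℓ hℓN hℓS) = a ℓ)
    (hnt : Nontrivial ↥(TMod854 p N S O a)) (c d : O) (g : GQ854)
    (h : (adicEigenModule854 p N S O a hpO hGH hSm hF hT hpS χ hχ hnt).ρ g *
        (adicEigenModule854 p N S O a hpO hGH hSm hF hT hpS χ hχ hnt).ρ g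
      - c • (adicEigenModule854 p N S O a hpO hGH hSm hF hT hpS χ hχ hnt).ρ g
      + d • (1 : Module.End O (adicEigenModule854 p N S O a hpO hGH hSm hF hT hpS χ hχ hnt).M)
        = 0) :
    tRep854 p N S O a hGH g * tRep854 p N S O a hGH g - c • tRep854 p N S O a hGH g
      + d • (1 : Module.End O ↥(TMod854 p N S O a)) = 0 := h

end JZero

end Fermat.Agent.S59.NMP.H854
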