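import Fermat.Agent.S59.NMP.H854.EigAlgRep
import Fermat.Agent.S59.NMP.H854.EigGeo
import Fermat.Agent.S59.NMP.H854.BlrInt
import Fermat.Agent.S59.NMP.H854.EigMod
import Fermat.Agent.S59.NMP.Spec
import Fermat.Agent.S37.H99.FrobAt
import Fermat.Agent.S59.H659.Cyclo
import Fermat.Prelude.Def_GaloisRep_LocalConditions

/-!
# Row S59, cell NMP, leaf LGC — EIG on the Tate eigenmodule, for a representation (helper854)

`scalar_of_rep854`.  `M` the Tate eigenmodule of `J₀(N)` (`p ∤ N`) for the `T_ℓ`, `ℓ ∉ S`, with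
eigenvalues `a ℓ`; `T_p` the operator induced on `M` by the Hecke operator at `p`; `ρ'` a
two-dimensional representation over `𝒪` whose image spans `End V`, with cyclotomic determinant,
such that every `g` satisfies on `M` the characteristic polynomial of `ρ' g`, and with unramified
Frobenius eigenvalue `α` at `p` (`NMP.UnrFrobAt`).  Given

* (K) for `J₀(N)` at the places over `p` (`S33.KeyAt`, on main: `S33.H692.oldAugStatement`),
* CORE at the places over `p` (Eichler–Shimura at `p` modulo the inertia augmentation),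

the operator `T_p` is the scalar `α + p/α` on `M`:  `α • T_p e = (α² + p) • e`.

Assembly of `eig_alg854` (algebra), `homEigen_relAt854` (geometry) and `blr_exists_algHom854`.
-/

set_option autoImplicit false
set_option linter.style.haveILetI false
set_option linter.unusedSectionVars false

noncomputable section

namespace Fermat.Agent.S59.NMP.H854

open IsLocalRing Fermat.Agent.S30 Fermat.Agent.S29 ModularCurve Fermat.Agent.S33

/-- In a local ring whose maximal ideal contains an odd prime, `2` is a unit. -/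
theorem isUnit_two854 {p : ℕ} (hp : p.Prime) (hp2 : p ≠ 2) {A : Type} [CommRing A]
    [IsLocalRing A] (hpA : (p : A) ∈ maximalIdeal A) : IsUnit (2 : A) := by
  by_contra hnu
  have h2 : (2 : A) ∈ maximalIdeal A := (mem_maximalIdeal _).mpr hnu
  have hodd : Odd p := hp.odd_of_ne_two hp2
  obtain ⟨k, hk⟩ := hodd
  have h1 : (1 : A) = (p : A) - 2 * (k : A) := by
    rw [hk]
    push_cast
    ring
  have : (1 : A) ∈ maximalIdeal A := by
    rw [h1]
    exact Ideal.sub_mem _ hpA (Ideal.mul_mem_right _ _ h2)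
  exact (Ideal.ne_top_iff_one _).mp (maximalIdeal.isMaximal A).ne_top this

/-- If `c - 1 ∈ 𝔪` for a natural number `c` and `p ∈ 𝔪`, then `c ≡ 1 mod p`. -/
theorem modEq_one_of_sub_mem854 {p : ℕ} (hp : p.Prime) {A : Type} [CommRing A]
    [IsLocalRing A] (hpA : (p : A) ∈ maximalIdeal A) (c : ℕ)
    (hc : (1 : A) - (c : A) ∈ maximalIdeal A) : c ≡ 1 [MOD p] := by
  rw [Nat.modEq_iff_dvd]
  by_contra hnd
  have hcop : IsCoprime (p : ℤ) ((1 : ℕ) - (c : ℕ) : ℤ) :=
    (Nat.prime_iff_prime_int.mp hp).coprime_iff_not_dvd.mpr hnd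
  obtain ⟨u, v, huv⟩ := hcop
  have h1 : (1 : A) = (u : A) * (p : A) + (v : A) * ((1 : A) - (c : A)) := by
    have := congrArg (Int.cast : ℤ → A) huv
    push_cast at this
    exact this.symm
  have : (1 : A) ∈ maximalIdeal A := by
    rw [h1]
    exact Ideal.add_mem _ (Ideal.mul_mem_left _ _ hpA) (Ideal.mul_mem_left _ _ hc)
  exact (Ideal.ne_top_iff_one _).mp (maximalIdeal.isMaximal A).ne_top this

section Main

variable (p N : ℕ) [NeZero N] (S : Finset ℕ)
variable (O : Type) [CommRing O] [IsDomain O] [IsDiscreteValuationRing O]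
  [IsAdicComplete (maximalIdeal O) O] [Finite (ResidueField O)] [CharZero O]
variable (a : ℕ → O)

/-- The Hecke operator at `p` on `J₀(N)`, as an additive map. -/
def tpOp854 (hp : p.Prime) : JZero N →+ JZero N := (heckeOperatorBar N ⟨p, hp⟩).toAddMonoidHom

@[simp] theorem tpOp854_apply (hp : p.Prime) (x : JZero N) :
    tpOp854 p N hp x = heckeOperatorBar N ⟨p, hp⟩ x := rfl

theorem tpOp854_comm (hComm : HeckeOperatorsCommuteBar N) (hp : p.Prime) (i : Idx854 S)
    (x : JZero N) : tpOp854 p N hp (tOp854 N S i x) = tOp854 N S i (tpOp854 p N hp x) := by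
  have h := congrArg (fun f : Module.End ℤ (JZero N) => f x) (hComm ⟨p, hp⟩ i.1)
  simp only [Module.End.mul_apply] at h
  exact h

/-- The operator `T_p` on the Tate eigenmodule. -/
def tpMod854 (hComm : HeckeOperatorsCommuteBar N) (hp : p.Prime) :
    Module.End O ↥(TMod854 p N S O a) :=
  H529.tateMap (ϖ := (p : O)) (t := fun i : Idx854 S => H529.PreHom.post (tOp854 N S i))
    (a := fun i => a i.1) (H529.PreHom.post (tpOp854 p N hp))
    (post_comm854 (tOp854 N S) (tpOp854 p N hp) (tpOp854_comm p N S hComm hp))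

theorem tpMod854_apply_coe (hComm : HeckeOperatorsCommuteBar N) (hp : p.Prime)
    (v : ↥(TMod854 p N S O a)) (n : ℕ) (x : O) :
    H529.PreHom.toHom (((tpMod854 p N S O a hComm hp v : ↥(TMod854 p N S O a)) :
        ℕ → H529.PreHom O (JZero N)) n) x
      = heckeOperatorBar N ⟨p, hp⟩ (H529.PreHom.toHom ((v : ℕ → H529.PreHom O (JZero N)) n) x) :=
  rfl

/-- `T_p` commutes with the Galois action on the Tate eigenmodule. -/
theorem tpMod854_comm_rep (hComm : HeckeOperatorsCommuteBar N) (hp : p.Prime)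
    (hGH : Fermat.Agent.S30.H330.GaloisHeckeStatement N) (σ : GQ854) :
    tpMod854 p N S O a hComm hp * tRep854 p N S O a hGH σ
      = tRep854 p N S O a hGH σ * tpMod854 p N S O a hComm hp := by
  apply LinearMap.ext
  intro v
  apply Subtype.ext
  funext n
  apply H529.PreHom.ext
  intro x
  exact (hGH σ ⟨p, hp⟩ _).symm

end Main

section Scalar

variable {p N : ℕ} [NeZero N] {S : Finset ℕ}
variable {O : Type} [CommRing O] [IsDomain O] [IsDiscreteValuationRing O]
  [IsAdicComplete (maximalIdeal O) O] [Finite (ResidueField O)] [CharZero O]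
variable {a : ℕ → O}

/-- Some element of the inertia group at `p` acts nontrivially, if the determinant is
cyclotomic. -/
theorem exists_inertia_ne_one854 (hp : p.Prime) (hp2 : p ≠ 2) (hpO : (p : O) ∈ maximalIdeal O)
    (ρ' : GaloisRepAdic O) (hdet : ρ'.DetIsCyclotomic p)
    (P₀ : ValuationSubring (AlgebraicClosure ℚ)) (hP₀ : P₀.LiesOverPrime p) :
    ∃ σ₁ ∈ P₀.inertiaSubgroupIn ℚ, ρ'.ρ σ₁ ≠ 1 := by
  obtain ⟨σ₁, hσ₁I, hσ₁⟩ := Fermat.Agent.S59.H659.exists_inertia_cycExp_ne_one p hp hp2 P₀ hP₀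
  refine ⟨σ₁, hσ₁I, fun h1 => ?_⟩
  obtain ⟨c, hc⟩ := Fermat.Agent.S59.H659.exists_isCycExp p hp.ne_zero σ₁
  have h2 := hdet.2 1 σ₁ c (fun μ hμ => hc μ (by rwa [pow_one] at hμ))
  rw [h1, map_one] at h2
  have h3 : (1 : O) - (c : O) ∈ maximalIdeal O := by
    refine (Ideal.span_le.mpr ?_) h2
    rw [Set.singleton_subset_iff, pow_one]
    exact hpO
  exact hσ₁ c hc (modEq_one_of_sub_mem854 hp hpO c h3)

/-- The hereditary geometric input for the Tate eigenmodule of `J₀(N)`
(`homEigen_relAt854` for the concrete operators). -/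
theorem tmod_geo854 [Fact p.Prime] (hpO : (p : O) ∈ maximalIdeal O)
    (hComm : HeckeOperatorsCommuteBar N)
    (hGH : Fermat.Agent.S30.H330.GaloisHeckeStatement N)
    (hF : {x : JZero N | p • x = 0}.Finite)
    (I : Subgroup GQ854) (hKey : KeyAt I p (JZero N))
    (σ₀ : GQ854)
    (hCore : ∀ (n : ℕ) (x : JZero N), p ^ n • x = 0 →
        σ₀ • σ₀ • x - heckeOperatorBar N ⟨p, Fact.out⟩ (σ₀ • x) + p • x ∈
          iAug I (torsSub (JZero N) (p ^ n)))
    (M' : Submodule O ↥(TMod854 p N S O a))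
    (hG : ∀ σ : GQ854, ∀ w ∈ M', tRep854 p N S O a hGH σ w ∈ M')
    (hsat : ∀ w : ↥(TMod854 p N S O a), (p : O) • w ∈ M' → w ∈ M')
    (a₀ : O) (ha₀ : a₀ ≠ 0)
    (hall : ∀ w ∈ M', a₀ • w ∈
      Submodule.span O {z : ↥(TMod854 p N S O a) | ∃ σ ∈ I, ∃ m : ↥(TMod854 p N S O a),
          z = tRep854 p N S O a hGH σ m - m} ⊔
        LinearMap.range (tRep854 p N S O a hGH σ₀ * tRep854 p N S O a hGH σ₀
          - tpMod854 p N S O a hComm Fact.out * tRep854 p N S O a hGH σ₀
          + (p : O) • (1 : Module.End O ↥(TMod854 p N S O a)))) :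
    M' ≤ Submodule.span O {z : ↥(TMod854 p N S O a) | ∃ σ ∈ I, ∃ m ∈ M',
      z = tRep854 p N S O a hGH σ m - m} :=
  homEigen_relAt854 p O (JZero N) (tOp854 N S) (fun i => a i.1) hpO
    (preHomRep_comm854 (tOp854 N S) (tOp854_galois N S hGH)) I hKey
    (tpOp854 p N Fact.out)
    (post_comm854 (tOp854 N S) (tpOp854 p N Fact.out) (tpOp854_comm p N S hComm Fact.out)) σ₀
    hCore (tmod_finite854 (tOp854 N S) (fun i => a i.1) Fact.out hpO hF) M' hG hsat a₀ ha₀ hall

/-- **EIG on the Tate eigenmodule.**  See the header. -/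
theorem scalar_of_rep854 [Fact p.Prime] (hp2 : p ≠ 2) (hpO : (p : O) ∈ maximalIdeal O)
    (hComm : HeckeOperatorsCommuteBar N)
    (hGH : Fermat.Agent.S30.H330.GaloisHeckeStatement N)
    (hF : {x : JZero N | p • x = 0}.Finite)
    (hKey : ∀ P : ValuationSubring (AlgebraicClosure ℚ), P.LiesOverPrime p →
      KeyAt (P.inertiaSubgroupIn ℚ) p (JZero N))
    (hCore : ∀ A : ValuationSubring (AlgebraicClosure ℚ), A.LiesOverPrime p →
      ∀ σ : GQ854, A.IsFrobeniusAt σ p → ∀ (n : ℕ) (x : JZero N), p ^ n • x = 0 →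
        σ • σ • x - heckeOperatorBar N ⟨p, Fact.out⟩ (σ • x) + p • x ∈
          iAug (A.inertiaSubgroupIn ℚ) (torsSub (JZero N) (p ^ n)))
    (ρ' : GaloisRepAdic O)
    (hspan : Submodule.span O (Set.range ρ'.ρ) = ⊤)
    (hdet : ρ'.DetIsCyclotomic p)
    (hquad : ∀ g : GQ854,
      tRep854 p N S O a hGH g * tRep854 p N S O a hGH g
        - LinearMap.trace O ρ'.V (ρ'.ρ g) • tRep854 p N S O a hGH g
        + LinearMap.det (ρ'.ρ g) • (1 : Module.End O ↥(TMod854 p N S O a)) = 0)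
    (α : O) (hα : UnrFrobAt ρ' p α)
    (e : ↥(TMod854 p N S O a)) :
    α • tpMod854 p N S O a hComm Fact.out e = (α ^ 2 + (p : O)) • e := by
  have hp : p.Prime := Fact.out
  have hp0 : (p : O) ≠ 0 := by exact_mod_cast hp.ne_zero
  obtain ⟨P₀, hP₀, L, ⟨b, hL⟩, -, hI, hFr⟩ := hα
  obtain ⟨σ₀, hσ₀⟩ := Fermat.Agent.S37.H99.exists_isFrobeniusAt p hp P₀ hP₀
  obtain ⟨σ₁, hσ₁I, hσ₁ne⟩ := exists_inertia_ne_one854 hp hp2 hpO ρ' hdet P₀ hP₀
  -- finiteness
  haveI hfinM : Module.Finite O ↥(TMod854 p N S O a) :=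
    tmod_finite854 (tOp854 N S) (fun i => a i.1) hp hpO hF
  haveI hnoeth : IsNoetherian O ↥(TMod854 p N S O a) :=
    isNoetherian_of_isNoetherianRing_of_finite O _
  have h2u : IsUnit (2 : O) := isUnit_two854 hp hp2 hpO
  -- the line
  have hI' : ∀ σ ∈ P₀.inertiaSubgroupIn ℚ, ∀ v : ρ'.V,
      ρ'.ρ σ v - v ∈ Submodule.span O ({b 0} : Set ρ'.V) := by
    intro σ hσ v
    have := hI σ hσ v
    rwa [hL] at this
  have hφ' : ∀ v : ρ'.V, ρ'.ρ σ₀ v - α • v ∈ Submodule.span O ({b 0} : Set ρ'.V) := by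
    intro v
    have := hFr σ₀ hσ₀ v
    rwa [hL] at this
  exact eig_alg_rep854 h2u b ρ'.ρ (tRep854 p N S O a hGH) hspan hquad
    (tpMod854 p N S O a hComm Fact.out)
    (tpMod854_comm_rep p N S O a hComm Fact.out hGH) (P₀.inertiaSubgroupIn ℚ) hI'
    σ₁ hσ₁I hσ₁ne σ₀ α hφ' (p : O) hp0
    (fun M' hG hsat a₀ ha₀ hall =>
      tmod_geo854 hpO hComm hGH hF (P₀.inertiaSubgroupIn ℚ) (hKey P₀ hP₀) σ₀
        (hCore P₀ hP₀ σ₀ hσ₀) M' hG hsat a₀ ha₀ hall) e

end Scalar

end Fermat.Agent.S59.NMP.H854
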