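import Mathlib
import Fermat.Prelude.Def_GaloisRep_Adic

/-!
# Row S59, cell NMP, leaf LGC — base change of a spanning representation (helper854)

If the image of `r : G → End_A V` spans `End_A V` (`V` free of rank two), the image of the base
change `g ↦ (r g).baseChange B` spans `End_B (B ⊗ V)`.  Applied to `GaloisRepAdic.baseChangeAlong`.
-/

set_option autoImplicit false
set_option linter.style.haveILetI false

namespace Fermat.Agent.S59.NMP.H854

open TensorProduct

section Abstract

variable {A B : Type*} [CommRing A] [CommRing B] [Algebra A B]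
  {V : Type*} [AddCommGroup V] [Module A V]

/-- The base change of an element of the span of `range r` is in the span of the base changes. -/
theorem baseChange_mem_span854 {G : Type*} (r : G → Module.End A V) {x : Module.End A V}
    (hx : x ∈ Submodule.span A (Set.range r)) :
    x.baseChange B ∈ Submodule.span B (Set.range fun g => (r g).baseChange B) := by
  induction hx using Submodule.span_induction with
  | mem y hy =>
    obtain ⟨g, rfl⟩ := hy
    exact Submodule.subset_span ⟨g, rfl⟩
  | zero =>
    rw [LinearMap.baseChange_zero]
    exact Submodule.zero_mem _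
  | add y z _ _ hy hz =>
    rw [LinearMap.baseChange_add]
    exact Submodule.add_mem _ hy hz
  | smul a y _ hy =>
    have h1 : (a • y).baseChange B = (algebraMap A B a) • y.baseChange B := by
      rw [LinearMap.baseChange_smul, algebraMap_smul]
    rw [h1]
    exact Submodule.smul_mem _ _ hy

/-- Every endomorphism of `B ⊗ V` is a `B`-combination of base changes. -/
theorem span_range_baseChange_eq_top854 {ι : Type*} [Fintype ι] [DecidableEq ι]
    (b : Module.Basis ι A V) :
    Submodule.span B (Set.range fun x : Module.End A V => x.baseChange B) = ⊤ := by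
  rw [eq_top_iff]
  intro f _
  have hf : f = ∑ i, ∑ j,
      LinearMap.toMatrix (Algebra.TensorProduct.basis B b) (Algebra.TensorProduct.basis B b) f i j •
        (Matrix.toLin b b (Matrix.single i j (1 : A))).baseChange B := by
    apply (LinearMap.toMatrix (Algebra.TensorProduct.basis B b)
      (Algebra.TensorProduct.basis B b)).injective
    ext k l
    simp only [map_sum, map_smul, LinearMap.toMatrix_baseChange, LinearMap.toMatrix_toLin,
      Matrix.sum_apply, Matrix.smul_apply, Matrix.map_apply, Matrix.single_apply, smul_eq_mul]
    rw [Finset.sum_eq_single k, Finset.sum_eq_single l]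
    · simp
    · intro j _ hj
      simp [hj]
    · intro h
      exact absurd (Finset.mem_univ l) h
    · intro i _ hi
      refine Finset.sum_eq_zero fun j _ => ?_
      simp [hi]
    · intro h
      exact absurd (Finset.mem_univ k) h
  rw [hf]
  refine Submodule.sum_mem _ fun i _ => Submodule.sum_mem _ fun j _ => ?_
  exact Submodule.smul_mem _ _ (Submodule.subset_span ⟨_, rfl⟩)

/-- Base change of a spanning family of endomorphisms. -/
theorem span_baseChange_eq_top854 {ι : Type*} [Fintype ι] [DecidableEq ι]
    (b : Module.Basis ι A V) {G : Type*} (r : G → Module.End A V)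
    (h : Submodule.span A (Set.range r) = ⊤) :
    Submodule.span B (Set.range fun g => (r g).baseChange B) = ⊤ := by
  rw [eq_top_iff, ← span_range_baseChange_eq_top854 (B := B) b, Submodule.span_le]
  rintro _ ⟨x, rfl⟩
  exact baseChange_mem_span854 r (by rw [h]; exact Submodule.mem_top)

end Abstract

section Galois

variable {A B : Type} [CommRing A] [IsLocalRing A] [CommRing B] [IsLocalRing B]

/-- The base change of a representation whose image spans `End V` has the same property. -/
theorem span_range_baseChangeAlong854 (φ : A →+* B) (hφ : IsLocalHom φ) (ρ : GaloisRepAdic A)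
    (h : Submodule.span A (Set.range ρ.ρ) = ⊤) :
    Submodule.span B (Set.range (ρ.baseChangeAlong φ hφ).ρ) = ⊤ := by
  classical
  letI : Algebra A B := φ.toAlgebra
  have b : Module.Basis (Fin 2) A ρ.V := Module.finBasisOfFinrankEq A ρ.V ρ.finrank_eq
  exact span_baseChange_eq_top854 (B := B) b (fun g => ρ.ρ g) h

/-- Trace of a base change. -/
theorem trace_baseChangeAlong854 (φ : A →+* B) (hφ : IsLocalHom φ) (ρ : GaloisRepAdic A)
    (σ : AlgebraicClosure ℚ ≃ₐ[ℚ] AlgebraicClosure ℚ) :
    LinearMap.trace B (ρ.baseChangeAlong φ hφ).V ((ρ.baseChangeAlong φ hφ).ρ σ)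
      = φ (ρ.trace σ) := by
  letI : Algebra A B := φ.toAlgebra
  exact LinearMap.trace_baseChange (ρ.ρ σ) B

/-- Determinant of a base change. -/
theorem det_baseChangeAlong854 (φ : A →+* B) (hφ : IsLocalHom φ) (ρ : GaloisRepAdic A)
    (σ : AlgebraicClosure ℚ ≃ₐ[ℚ] AlgebraicClosure ℚ) :
    LinearMap.det ((ρ.baseChangeAlong φ hφ).ρ σ) = φ (LinearMap.det (ρ.ρ σ)) := by
  letI : Algebra A B := φ.toAlgebra
  exact LinearMap.det_baseChange (ρ.ρ σ)

end Galois

end Fermat.Agent.S59.NMP.H854
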