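import Fermat.Agent.S59.NMP.H854.EigRep
import Fermat.Agent.S59.NMP.H854.EigSpan
import Fermat.Agent.S59.NMP.H135.LgcSpec
import Fermat.Agent.S32.Spec
import Fermat.Agent.S31.H202.TraceRigid
import Fermat.Agent.S59.H540.DetCyc
import Fermat.Agent.S56.H966.CondBC

/-!
# Row S59, cell NMP, leaf LGC — EIG (helper854): `LgcEigStatement` from CORE

    lgcEig_of_core854 :  (inputs on main)  →  H135.LgcCoreStatement  →  H135.LgcEigStatement

in the OPERATOR form frozen in `S59/NMP/H135/LgcSpec.lean` (`ScalarAtP` for ALL eigen-homs):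
no semisimplicity of `T_p`, no extension of `𝒪`, no multiplicity one.

Inputs, all theorems on main (plugged in `EigFinal.lean`):
`S32.RelStatement` (`S32.H692.rel`), `S33.OldAugStatement` (`S33.H692.oldAugStatement`),
`HeckeOperatorsCommuteBar` (`S29.heckeOperatorsCommuteBar`), (GH), (Sm), (F), (T) of row S30.

Proof: `scalarAtP_of_datum854` = `scalar_of_rep854` for `ρ' = H.ρ ⊗_π 𝒪` on the Tate eigenmodule
`M` of the family `(T_ℓ)_{ℓ ∉ S}` (REL gives the quadratic relations), evaluated on the element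
`seqOfHom p f` of `M` attached to an eigen-hom `f`.
-/

set_option autoImplicit false
set_option linter.style.haveILetI false
set_option linter.unusedSectionVars false

noncomputable section

namespace Fermat.Agent.S59.NMP.H854

open IsLocalRing Fermat.Agent.S30 Fermat.Agent.S29 ModularCurve Fermat.Agent.S33 CuspForm
open Fermat.Agent.S59.NMP.H135 Fermat.Agent.S31

/-- The global inputs of EIG (all theorems on main). -/
structure EigInputs854 : Prop where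
  rel : Fermat.Agent.S32.RelStatement
  old : Fermat.Agent.S33.OldAugStatement
  comm : ∀ (N : ℕ) [NeZero N], HeckeOperatorsCommuteBar N
  gh : ∀ (N : ℕ) [NeZero N], Fermat.Agent.S30.H330.GaloisHeckeStatement N
  sm : ∀ (N : ℕ) [NeZero N], Fermat.Agent.S30.H330.SmoothStatement N
  fin : ∀ (N : ℕ) [NeZero N] (p : ℕ) [Fact p.Prime], {x : JZero N | p • x = 0}.Finite
  tors : ∀ (N : ℕ) [NeZero N] (p : ℕ) [Fact p.Prime], Fermat.Agent.S30.H330.TorsionRelations N p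

section Datum

variable (p : ℕ) [Fact p.Prime] (N : ℕ) [NeZero N] (S : Finset ℕ)
  (𝒪 : Type) [CommRing 𝒪] [IsDomain 𝒪] [IsDiscreteValuationRing 𝒪]
  [IsAdicComplete (maximalIdeal 𝒪) 𝒪] [Finite (ResidueField 𝒪)] [CharZero 𝒪]
  (θ : heckeAlgebra N 2 (↑S : Set ℕ) →+* ResidueField 𝒪)
  (T : Type) [CommRing T] [IsLocalRing T] [IsNoetherianRing T]
  [IsAdicComplete (maximalIdeal T) T] [Algebra 𝒪 T] [IsLocalHom (algebraMap 𝒪 T)]
  [Module.Finite 𝒪 T] [Module.Free 𝒪 T]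

/-- The quadratic relations of `ρ' = H.ρ ⊗_π 𝒪` on the Tate eigenmodule (REL). -/
theorem tRep854_quad (hIn : EigInputs854) (hp𝒪 : (p : 𝒪) ∈ maximalIdeal 𝒪)
    (hpS : p ∈ S) (hNS : ∀ q : ℕ, q.Prime → q ∣ N → q ∈ S)
    (H : HeckeGaloisRepDatum N (↑S : Set ℕ) 𝒪 θ T)
    (π : T →+* 𝒪) (hπloc : IsLocalHom π) (a : ℕ → 𝒪)
    (ha : ∀ (ℓ : ℕ) (hℓ : ℓ.Prime) (hℓN : ¬ ℓ ∣ N) (hℓS : ℓ ∉ (↑S : Set ℕ)),
      π (H.π (heckeAlgebra.T hℓ hℓN hℓS)) = a ℓ)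
    (hnt : Nontrivial ↥(TMod854 p N S 𝒪 a)) (g : GQ854) :
    tRep854 p N S 𝒪 a (hIn.gh N) g * tRep854 p N S 𝒪 a (hIn.gh N) g
      - LinearMap.trace 𝒪 (H.ρ.baseChangeAlong π hπloc).V ((H.ρ.baseChangeAlong π hπloc).ρ g)
          • tRep854 p N S 𝒪 a (hIn.gh N) g
      + LinearMap.det ((H.ρ.baseChangeAlong π hπloc).ρ g)
          • (1 : Module.End 𝒪 ↥(TMod854 p N S 𝒪 a)) = 0 := by
  have hrel := hIn.rel p N S hpS hNS 𝒪 θ T H ⟨𝒪, hp𝒪, π⟩ hπloc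
    (adicEigenModule854 p N S 𝒪 a hp𝒪 (hIn.gh N) (hIn.sm N) (hIn.fin N p) (hIn.tors N p) hpS
      (π.comp H.π) ha hnt) g
  have h1 := adicEigenModule854_rel p N S 𝒪 a hp𝒪 (hIn.gh N) (hIn.sm N) (hIn.fin N p)
    (hIn.tors N p) hpS (π.comp H.π) ha hnt (π (H.ρ.trace g)) (π ((H.ρ.det g : Tˣ) : T)) g hrel
  have e1 := trace_baseChangeAlong854 π hπloc H.ρ g
  have e2 : LinearMap.det ((H.ρ.baseChangeAlong π hπloc).ρ g) = π ((H.ρ.det g : Tˣ) : T) :=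
    det_baseChangeAlong854 π hπloc H.ρ g
  have key : ∀ c d : 𝒪, c = π (H.ρ.trace g) → d = π ((H.ρ.det g : Tˣ) : T) →
      tRep854 p N S 𝒪 a (hIn.gh N) g * tRep854 p N S 𝒪 a (hIn.gh N) g
        - c • tRep854 p N S 𝒪 a (hIn.gh N) g
        + d • (1 : Module.End 𝒪 ↥(TMod854 p N S 𝒪 a)) = 0 := by
    intro c d hc hd
    subst hc
    subst hd
    exact h1
  exact key _ _ e1 e2

/-- **EIG for a datum**: `T_p` acts on the eigen-homs by `(α² + p)/α`. -/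
theorem scalarAtP_of_datum854 (hIn : EigInputs854) (hCore : LgcCoreStatement)
    (hp2 : p ≠ 2) (hp𝒪 : (p : 𝒪) ∈ maximalIdeal 𝒪)
    (hpS : p ∈ S) (hNS : ∀ q : ℕ, q.Prime → q ∣ N → q ∈ S) (hpN : ¬ p ∣ N)
    (H : HeckeGaloisRepDatum N (↑S : Set ℕ) 𝒪 θ T)
    (π : T →+* 𝒪) (hπloc : IsLocalHom π) (a : ℕ → 𝒪)
    (ha : ∀ (ℓ : ℕ) (hℓ : ℓ.Prime) (hℓN : ¬ ℓ ∣ N) (hℓS : ℓ ∉ (↑S : Set ℕ)),
      π (H.π (heckeAlgebra.T hℓ hℓN hℓS)) = a ℓ)
    (α : 𝒪) (hα : UnrFrobAt (H.ρ.baseChangeAlong π hπloc) p α) :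
    ScalarAtP N S a p α := by
  have hp : p.Prime := Fact.out
  intro f hf x
  obtain ⟨hf0, hfe⟩ := hf
  have hiN : ∀ i : Idx854 S, ¬ ((i.1 : Nat.Primes) : ℕ) ∣ N := fun i h => i.2 (hNS _ i.1.2 h)
  have hmem := seqOfHom_mem854 (tOp854 N S) (fun i => a i.1) hp f hf0
    (fun i x => hfe i.1 (hiN i) i.2 x)
  -- the main claim
  have hmain : α • tpMod854 p N S 𝒪 a (hIn.comm N) Fact.out
      (⟨H529.seqOfHom p f, hmem⟩ : ↥(TMod854 p N S 𝒪 a))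
        = (α ^ 2 + (p : 𝒪)) • (⟨H529.seqOfHom p f, hmem⟩ : ↥(TMod854 p N S 𝒪 a)) := by
    by_cases hnt : Nontrivial ↥(TMod854 p N S 𝒪 a)
    · have hpT : (p : T) ∈ maximalIdeal T := by
        rw [mem_maximalIdeal, mem_nonunits_iff]
        intro hu
        have h1 : (p : T) = algebraMap 𝒪 T (p : 𝒪) := by rw [map_natCast]
        rw [h1] at hu
        have h2 : IsUnit (p : 𝒪) := isUnit_of_map_unit (algebraMap 𝒪 T) _ hu
        exact (mem_nonunits_iff.mp ((mem_maximalIdeal _).mp hp𝒪)) h2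
      exact scalar_of_rep854 hp2 hp𝒪 (hIn.comm N) (hIn.gh N) (hIn.fin N p)
        (fun P hP => hIn.old p N hp hp2 hpN P hP)
        (fun A hA σ hσ n x hx => hCore p N hp hp2 hpN A hA σ hσ n x hx)
        (H.ρ.baseChangeAlong π hπloc)
        (span_range_baseChangeAlong854 π hπloc H.ρ
          (Fermat.Agent.S31.H202.span_range_rho_eq_top H.ρ H.residual_absIrr))
        (Fermat.Agent.S56.H966.detIsCyclotomic_baseChangeAlong π hπloc
          (Fermat.Agent.S59.H540.heckeGaloisRepDatum_detIsCyclotomic S H p hpT))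
        (tRep854_quad p N S 𝒪 θ T hIn hp𝒪 hpS hNS H π hπloc a ha hnt) α hα _
    · have : Subsingleton ↥(TMod854 p N S 𝒪 a) := not_nontrivial_iff_subsingleton.mp hnt
      exact Subsingleton.elim _ _
  -- evaluation
  obtain ⟨n, x', hx'⟩ := exists_eq_div_pow854 hp hp𝒪 x
  have h := congrArg (fun v : ↥(TMod854 p N S 𝒪 a) =>
    H529.PreHom.toHom ((v : ℕ → H529.PreHom 𝒪 (JZero N)) n) x') hmain
  have hL : H529.PreHom.toHom (((α • tpMod854 p N S 𝒪 a (hIn.comm N) Fact.out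
      (⟨H529.seqOfHom p f, hmem⟩ : ↥(TMod854 p N S 𝒪 a)) : ↥(TMod854 p N S 𝒪 a)) :
        ℕ → H529.PreHom 𝒪 (JZero N)) n) x'
      = heckeOperatorBar N ⟨p, Fact.out⟩ (f (algebraMap 𝒪 (FractionRing 𝒪) (α * x')
          * (algebraMap 𝒪 (FractionRing 𝒪) (p : 𝒪) ^ (n + 1))⁻¹)) := rfl
  have hR : H529.PreHom.toHom ((((α ^ 2 + (p : 𝒪)) •
      (⟨H529.seqOfHom p f, hmem⟩ : ↥(TMod854 p N S 𝒪 a)) : ↥(TMod854 p N S 𝒪 a)) :
        ℕ → H529.PreHom 𝒪 (JZero N)) n) x'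
      = f (algebraMap 𝒪 (FractionRing 𝒪) ((α ^ 2 + (p : 𝒪)) * x')
          * (algebraMap 𝒪 (FractionRing 𝒪) (p : 𝒪) ^ (n + 1))⁻¹) := rfl
  have h' : heckeOperatorBar N ⟨p, Fact.out⟩ (f (algebraMap 𝒪 (FractionRing 𝒪) (α * x')
        * (algebraMap 𝒪 (FractionRing 𝒪) (p : 𝒪) ^ (n + 1))⁻¹))
      = f (algebraMap 𝒪 (FractionRing 𝒪) ((α ^ 2 + (p : 𝒪)) * x')
          * (algebraMap 𝒪 (FractionRing 𝒪) (p : 𝒪) ^ (n + 1))⁻¹) := hL.symm.trans (h.trans hR)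
  have e1 : algebraMap 𝒪 (FractionRing 𝒪) α * x
      = algebraMap 𝒪 (FractionRing 𝒪) (α * x')
        * (algebraMap 𝒪 (FractionRing 𝒪) (p : 𝒪) ^ (n + 1))⁻¹ := by
    rw [hx', map_mul, mul_assoc]
  have e2 : algebraMap 𝒪 (FractionRing 𝒪) (α ^ 2 + (p : 𝒪)) * x
      = algebraMap 𝒪 (FractionRing 𝒪) ((α ^ 2 + (p : 𝒪)) * x')
        * (algebraMap 𝒪 (FractionRing 𝒪) (p : 𝒪) ^ (n + 1))⁻¹ := by
    rw [hx', map_mul, mul_assoc]
  rw [e1, e2]
  exact h'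

end Datum

/-- **Leaf EIG of NMP-LGC** (frozen shape of `S59/NMP/H135/LgcSpec.lean`), from CORE and the
inputs on main. -/
theorem lgcEig_of_core854 (hIn : EigInputs854) (hCore : LgcCoreStatement) :
    LgcEigStatement := by
  intro p _ 𝒪 _ _ _ _ _ _ ρbar Smin h hc Sig hSig hSigP hpSig hflat hord _ _ θ _ _ _ _ _ _
    H hπ hres hcond π hπloc a hπa α hα hpN
  refine scalarAtP_of_datum854 p _ Sig 𝒪 θ _ hIn hCore h.hp2 h.hp𝒪 hpSig
    (fun q hq hd => Fermat.Agent.S59.H765.prime_dvd_wilesLevel p .flat hSig hSigP hpSig hq hd)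
    hpN H (π : _ →+* 𝒪) hπloc a ?_ α hα
  intro ℓ hℓ hℓN hℓS
  rw [hπ]
  exact hπa ℓ hℓ hℓN hℓS

end Fermat.Agent.S59.NMP.H854
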